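/-
S25 U4: evaluation of functions at points with values in rings, affine opens of a scheme as rings.
-/
import Fermat.Agent.Jac.Sheaf.Glue

set_option autoImplicit false

noncomputable section

universe u

open CategoryTheory CategoryTheory.Limits AlgebraicGeometry TopologicalSpace Opposite

namespace Fermat.Agent.Jac.Shf

variable {X Y : Scheme.{u}} {S S' : CommRingCat.{u}}

/-- The value of a function at a point with values in a ring, landing in an open set. -/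
def evalAt (f : Spec S ⟶ X) (U : X.Opens) (h : f ⁻¹ᵁ U = ⊤) : Γ(X, U) →+* S :=
  (f.appLE U ⊤ h.ge ≫ (Scheme.ΓSpecIso S).hom).hom

theorem preimage_eq_top_of_le {f : Spec S ⟶ X} {U V : X.Opens} (h : f ⁻¹ᵁ V = ⊤) (hle : V ≤ U) :
    f ⁻¹ᵁ U = ⊤ :=
  top_le_iff.mp (h.ge.trans (f.preimage_mono hle))

theorem preimage_inf_eq_top {f : Spec S ⟶ X} {U V : X.Opens} (hU : f ⁻¹ᵁ U = ⊤) (hV : f ⁻¹ᵁ V = ⊤) :
    f ⁻¹ᵁ (U ⊓ V) = ⊤ := by
  rw [Scheme.Hom.preimage_inf, hU, hV, inf_top_eq]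

theorem evalAt_res (f : Spec S ⟶ X) {U V : X.Opens} (h : f ⁻¹ᵁ V = ⊤) (hle : V ≤ U) (r : Γ(X, U)) :
    evalAt f V h (resO hle r) = evalAt f U (preimage_eq_top_of_le h hle) r := by
  change ((X.presheaf.map (homOfLE hle).op) ≫ f.appLE V ⊤ h.ge ≫ (Scheme.ΓSpecIso S).hom).hom r = _
  rw [Scheme.Hom.map_appLE_assoc]
  rfl

theorem evalAt_comp (f : Spec S ⟶ X) (φ : S ⟶ S') {U : X.Opens} (h : f ⁻¹ᵁ U = ⊤)
    (h' : (Spec.map φ ≫ f) ⁻¹ᵁ U = ⊤) (r : Γ(X, U)) :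
    evalAt (Spec.map φ ≫ f) U h' r = φ (evalAt f U h r) := by
  have : (Spec.map φ ≫ f).appLE U ⊤ h'.ge = f.appLE U ⊤ h.ge ≫ (Spec.map φ).appTop := by
    rw [Scheme.Hom.appTop, ← Scheme.Hom.appLE_eq_app]
    exact (Scheme.Hom.appLE_comp_appLE _ _ _ _ _ _ _).symm
  unfold evalAt
  rw [this, Category.assoc, Scheme.ΓSpecIso_naturality]
  rfl

theorem evalAt_congr {f f' : Spec S ⟶ X} (e : f = f') {U : X.Opens} (h : f ⁻¹ᵁ U = ⊤)
    (h' : f' ⁻¹ᵁ U = ⊤) (r : Γ(X, U)) : evalAt f U h r = evalAt f' U h' r := by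
  subst e; rfl

theorem evalAt_app (f : Spec S ⟶ X) (g : X ⟶ Y) {U : Y.Opens} (h : f ⁻¹ᵁ (g ⁻¹ᵁ U) = ⊤)
    (r : Γ(Y, U)) :
    evalAt (f ≫ g) U h r = evalAt f (g ⁻¹ᵁ U) h (g.app U r) := by
  have : (f ≫ g).appLE U ⊤ h.ge = g.app U ≫ f.appLE (g ⁻¹ᵁ U) ⊤ h.ge := by
    rw [Scheme.Hom.app_eq_appLE]
    exact (Scheme.Hom.appLE_comp_appLE _ _ _ _ _ _ _).symm
  unfold evalAt
  rw [this]
  rfl

theorem preimage_opensRange_comp (j : Spec S' ⟶ X) [IsOpenImmersion j]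
    (g : Spec S ⟶ Spec S') : (g ≫ j) ⁻¹ᵁ j.opensRange = ⊤ := by
  rw [Scheme.Hom.comp_preimage, Scheme.Hom.preimage_opensRange, Scheme.Hom.preimage_top]

section Chart

variable (j : Spec S ⟶ X) [IsOpenImmersion j]

/-- Functions on an affine open given by a chart. -/
def chartEquiv : S ≃+* Γ(X, j.opensRange) :=
  ((Scheme.ΓSpecIso S).symm ≪≫ (j.appIso ⊤).symm ≪≫
    X.presheaf.mapIso (eqToIso (j.image_top_eq_opensRange).symm).op).commRingCatIsoToRingEquiv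

theorem evalAt_chartEquiv (h : j ⁻¹ᵁ j.opensRange = ⊤) (r : S) :
    evalAt j j.opensRange h (chartEquiv j r) = r := by
  have key : ((j.appIso ⊤).inv ≫ X.presheaf.map (eqToHom (j.image_top_eq_opensRange).symm).op) ≫
      j.appLE j.opensRange ⊤ h.ge = 𝟙 _ := by
    rw [Category.assoc, Scheme.Hom.map_appLE, Scheme.Hom.appIso_inv_appLE]
    simp
  have := congr((($key) ≫ (Scheme.ΓSpecIso S).hom).hom ((Scheme.ΓSpecIso S).inv r))
  refine Eq.trans ?_ (this.trans ?_)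
  · rfl
  · change ((Scheme.ΓSpecIso S).inv ≫ (Scheme.ΓSpecIso S).hom) r = r
    rw [Iso.inv_hom_id]
    rfl

theorem evalAt_comp_chartEquiv (φ : S ⟶ S') (h : (Spec.map φ ≫ j) ⁻¹ᵁ j.opensRange = ⊤) (r : S) :
    evalAt (Spec.map φ ≫ j) j.opensRange h (chartEquiv j r) = φ r := by
  rw [evalAt_comp j φ (by simp) h, evalAt_chartEquiv]

theorem chartEquiv_symm (r : Γ(X, j.opensRange)) (h : j ⁻¹ᵁ j.opensRange = ⊤) :
    evalAt j j.opensRange h r = (chartEquiv j).symm r := by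
  conv_lhs => rw [← (chartEquiv j).apply_symm_apply r]
  rw [evalAt_chartEquiv]

theorem isAffineOpen_chart : IsAffineOpen j.opensRange :=
  isAffineOpen_opensRange j

theorem preimage_basicOpen_chartEquiv (r : S) :
    j ⁻¹ᵁ X.basicOpen (chartEquiv j r) = PrimeSpectrum.basicOpen r := by
  rw [Scheme.preimage_basicOpen, ← basicOpen_eq_of_affine]
  have h : j ⁻¹ᵁ j.opensRange = ⊤ := by simp
  have e : j.appLE j.opensRange ⊤ h.ge (chartEquiv j r) = (Scheme.ΓSpecIso S).inv r := by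
    apply ((Scheme.ΓSpecIso S).commRingCatIsoToRingEquiv).injective
    change evalAt j j.opensRange h (chartEquiv j r) = _
    rw [evalAt_chartEquiv]
    exact (congr(($((Scheme.ΓSpecIso S).inv_hom_id)).hom r)).symm
  rw [← e, Scheme.basicOpen_appLE]
  simp

end Chart

end Fermat.Agent.Jac.Shf
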