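/-
S25 U4: the curve over an affine base, its two charts and the formal neighbourhood of the section.
-/
import Fermat.Agent.Jac.Dictionary.Eval
import Fermat.Agent.Jac.Model
import Mathlib.RingTheory.PowerSeries.Basic
import Mathlib.RingTheory.Jacobson.Ideal

set_option autoImplicit false

noncomputable section

universe u

open CategoryTheory CategoryTheory.Limits AlgebraicGeometry TopologicalSpace NeronModelInfra
  AlgebraicGeometry.RelPicard TensorProduct

namespace Fermat.Agent.Jac

variable {k : Type u} [Field k] {C : Scheme.{u}} {c : C ⟶ Spec (CommRingCat.of k)}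
  {ε : SchemeHomOver (𝟙 (Spec (CommRingCat.of k))) c}

section Chart

variable (B : Type u) [CommRing B] [Algebra k B] {A : Type u} [CommRing A] [Algebra k A]
  (j : Spec (CommRingCat.of A) ⟶ C) (hj : j ≫ c = specBase k A)

include hj in
theorem chartOver_cond :
    (Spec.map (CommRingCat.ofHom (Algebra.TensorProduct.includeRight : A →ₐ[k] B ⊗[k] A).toRingHom) ≫
        j) ≫ c =
      Spec.map (CommRingCat.ofHom (Algebra.TensorProduct.includeLeftRingHom : B →+* B ⊗[k] A)) ≫
        specBase k B := by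
  rw [Category.assoc, hj, specBase, specBase, ← Spec.map_comp, ← Spec.map_comp]
  congr 1
  refine CommRingCat.hom_ext (RingHom.ext fun r => ?_)
  exact (Algebra.TensorProduct.includeRight : A →ₐ[k] B ⊗[k] A).commutes r

/-- A chart of the curve, over the base. -/
def chartOver : Spec (CommRingCat.of (B ⊗[k] A)) ⟶ pullback c (specBase k B) :=
  pullback.lift
    (Spec.map (CommRingCat.ofHom (Algebra.TensorProduct.includeRight : A →ₐ[k] B ⊗[k] A).toRingHom) ≫ j)
    (Spec.map (CommRingCat.ofHom (Algebra.TensorProduct.includeLeftRingHom : B →+* B ⊗[k] A)))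
    (chartOver_cond B j hj)

@[reassoc]
theorem chartOver_fst : chartOver B j hj ≫ pullback.fst c (specBase k B) =
    Spec.map (CommRingCat.ofHom (Algebra.TensorProduct.includeRight : A →ₐ[k] B ⊗[k] A).toRingHom) ≫ j :=
  pullback.lift_fst _ _ _

@[reassoc]
theorem chartOver_snd : chartOver B j hj ≫ pullback.snd c (specBase k B) =
    Spec.map (CommRingCat.ofHom (Algebra.TensorProduct.includeLeftRingHom : B →+* B ⊗[k] A)) :=
  pullback.lift_snd _ _ _

theorem isPullback_chartOver :
    IsPullback (Spec.map (CommRingCat.ofHom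
        (Algebra.TensorProduct.includeRight : A →ₐ[k] B ⊗[k] A).toRingHom))
      (chartOver B j hj) j (pullback.fst c (specBase k B)) := by
  have h1 := (isPullback_SpecMap_of_isPushout _ _ _ _ (CommRingCat.isPushout_tensorProduct k B A)).flip
  refine IsPullback.of_bot ?_ (chartOver_fst B j hj).symm (IsPullback.of_hasPullback c (specBase k B))
  rw [chartOver_snd, hj]
  exact h1

instance isOpenImmersion_chartOver [IsOpenImmersion j] : IsOpenImmersion (chartOver B j hj) :=
  MorphismProperty.of_isPullback (isPullback_chartOver B j hj) inferInstance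

theorem mem_opensRange_chartOver [IsOpenImmersion j] (x : (pullback c (specBase k B) : Scheme.{u})) :
    x ∈ (chartOver B j hj).opensRange ↔ pullback.fst c (specBase k B) x ∈ Set.range j := by
  constructor
  · rintro ⟨y, rfl⟩
    exact ⟨_, congr(($((isPullback_chartOver B j hj).w)) y)⟩
  · intro hx
    let e := (isPullback_chartOver B j hj).flip.isoPullback
    have : x ∈ Set.range (pullback.fst (pullback.fst c (specBase k B)) j) := by
      rw [Scheme.Pullback.range_fst]
      exact hx
    obtain ⟨z, hz⟩ := this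
    refine ⟨e.inv z, ?_⟩
    rw [← Scheme.Hom.comp_apply, IsPullback.isoPullback_inv_fst]
    exact hz

end Chart

namespace CurveModel

variable (M : CurveModel c ε) (B : Type u) [CommRing B] [Algebra k B]

/-- The curve over the affine base. -/
abbrev XB (_M : CurveModel c ε) : Scheme.{u} := pullback c (specBase k B)

/-- Functions on the neighbourhood of the section over the base. -/
abbrev Coord₁ : Type u := B ⊗[k] M.A₁

/-- Expansion on the neighbourhood of the section. -/
def emb₁B : M.Coord₁ B →ₐ[B] PowerSeries B :=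
  Algebra.TensorProduct.lift (Algebra.ofId B (PowerSeries B))
    ((PowerSeries.mapAlgHom (Algebra.ofId k B)).comp M.emb₁) fun _ _ => mul_comm _ _

theorem emb₁B_tmul (b : B) (a : M.A₁) :
    M.emb₁B B (b ⊗ₜ[k] a) = PowerSeries.C b * PowerSeries.map (algebraMap k B) (M.emb₁ a) := by
  simp only [emb₁B, Algebra.TensorProduct.lift_tmul]
  rfl

/-- The punctured chart. -/
def q₀ : Spec (CommRingCat.of (M.D.Coord B)) ⟶ M.XB B := chartOver B M.j₀ M.j₀_c

/-- The chart around the section. -/
def q₁ : Spec (CommRingCat.of (M.Coord₁ B)) ⟶ M.XB B := chartOver B M.j₁ M.j₁_c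

instance : IsOpenImmersion (M.q₀ B) := isOpenImmersion_chartOver B M.j₀ M.j₀_c

instance : IsOpenImmersion (M.q₁ B) := isOpenImmersion_chartOver B M.j₁ M.j₁_c

/-- The punctured curve. -/
def V₀ : (M.XB B).Opens := (M.q₀ B).opensRange

/-- The neighbourhood of the section. -/
def V₁ : (M.XB B).Opens := (M.q₁ B).opensRange

theorem covers_B (x : M.XB B) : x ∈ M.V₀ B ∨ x ∈ M.V₁ B := by
  have h : pullback.fst c (specBase k B) x ∈ Set.range M.j₀ ∪ Set.range M.j₁ := by
    rw [M.covers]; trivial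
  exact h.imp (mem_opensRange_chartOver B M.j₀ M.j₀_c x).mpr
    (mem_opensRange_chartOver B M.j₁ M.j₁_c x).mpr

theorem preimage_V₀ :
    M.q₁ B ⁻¹ᵁ M.V₀ B = PrimeSpectrum.basicOpen (Algebra.TensorProduct.includeRight M.h : M.Coord₁ B) := by
  refine Opens.ext (Set.ext fun y => ?_)
  have h1 : pullback.fst c (specBase k B) (M.q₁ B y) =
      M.j₁ (Spec.map (CommRingCat.ofHom
        (Algebra.TensorProduct.includeRight : M.A₁ →ₐ[k] M.Coord₁ B).toRingHom) y) :=
    congr(($(chartOver_fst B M.j₁ M.j₁_c)) y)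
  refine Iff.trans (mem_opensRange_chartOver B M.j₀ M.j₀_c _) ?_
  rw [h1]
  refine (Set.ext_iff.mp M.preimage_range _).trans ?_
  exact Iff.rfl

/-- The formal neighbourhood of the section. -/
def θ : Spec (CommRingCat.of (PowerSeries B)) ⟶ M.XB B :=
  Spec.map (CommRingCat.ofHom (M.emb₁B B).toRingHom) ≫ M.q₁ B

/-- The punctured formal neighbourhood of the section. -/
def θ' : Spec (CommRingCat.of (LaurentSeries B)) ⟶ M.XB B :=
  Spec.map (CommRingCat.ofHom (M.D.embB B).toRingHom) ≫ M.q₀ B

theorem embB_includeRight (a : M.D.A) :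
    M.D.embB B (Algebra.TensorProduct.includeRight a) = coeffMap (algebraMap k B) (M.D.emb a) := by
  simp only [CurveData.embB, Algebra.TensorProduct.includeRight_apply, Algebra.TensorProduct.lift_tmul,
    map_one, one_mul]
  rfl

theorem emb₁B_includeRight (a : M.A₁) :
    M.emb₁B B (Algebra.TensorProduct.includeRight a) = PowerSeries.map (algebraMap k B) (M.emb₁ a) := by
  simp [emb₁B_tmul]

theorem coeffMap_ofPowerSeries {R S : Type*} [CommRing R] [CommRing S] (f : R →+* S)
    (x : PowerSeries R) :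
    coeffMap f (HahnSeries.ofPowerSeries ℤ R x) = HahnSeries.ofPowerSeries ℤ S (PowerSeries.map f x) := by
  ext n
  rcases Int.lt_or_le n 0 with hn | hn
  · rw [coeffMap_coeff, PowerSeries.coeff_coe, PowerSeries.coeff_coe]
    simp [hn]
  · rw [coeffMap_coeff, PowerSeries.coeff_coe, PowerSeries.coeff_coe]
    simp [not_lt.mpr hn, PowerSeries.coeff_map]

theorem θ'_eq : M.θ' B =
    Spec.map (CommRingCat.ofHom (HahnSeries.ofPowerSeries ℤ B)) ≫ M.θ B := by
  refine pullback.hom_ext ?_ ?_
  · simp only [θ', θ, q₀, q₁, Category.assoc, chartOver_fst]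
    have e0 : (CommRingCat.ofHom (Algebra.TensorProduct.includeRight :
        M.D.A →ₐ[k] M.D.Coord B).toRingHom ≫ CommRingCat.ofHom (M.D.embB B).toRingHom) =
        CommRingCat.ofHom (M.D.emb : M.D.A →+* LaurentSeries k) ≫
          CommRingCat.ofHom (coeffMap (algebraMap k B)) := by
      refine CommRingCat.hom_ext (RingHom.ext fun a => ?_)
      exact M.embB_includeRight B a
    have e1 : (CommRingCat.ofHom (Algebra.TensorProduct.includeRight :
        M.A₁ →ₐ[k] M.Coord₁ B).toRingHom ≫ CommRingCat.ofHom (M.emb₁B B).toRingHom ≫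
          CommRingCat.ofHom (HahnSeries.ofPowerSeries ℤ B)) =
        CommRingCat.ofHom ((HahnSeries.ofPowerSeries ℤ k).comp (M.emb₁ : M.A₁ →+* PowerSeries k)) ≫
          CommRingCat.ofHom (coeffMap (algebraMap k B)) := by
      refine CommRingCat.hom_ext (RingHom.ext fun a => ?_)
      change HahnSeries.ofPowerSeries ℤ B (M.emb₁B B (Algebra.TensorProduct.includeRight a)) = _
      rw [M.emb₁B_includeRight, ← coeffMap_ofPowerSeries]
      rfl
    rw [← Spec.map_comp_assoc, e0, Spec.map_comp_assoc, M.agree, ← Spec.map_comp_assoc, ← e1]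
    simp only [Spec.map_comp, Category.assoc]
  · simp only [θ', θ, q₀, q₁, Category.assoc, chartOver_snd, ← Spec.map_comp]
    congr 1
    refine CommRingCat.hom_ext (RingHom.ext fun b => ?_)
    change M.D.embB B (b ⊗ₜ 1) = HahnSeries.ofPowerSeries ℤ B (M.emb₁B B (b ⊗ₜ 1))
    rw [emb₁B_tmul]
    simp [CurveData.embB, HahnSeries.ofPowerSeries_C, HahnSeries.algebraMap_apply]

theorem rigSection_eq : rigSection c (specBase k B) ε =
    Spec.map (CommRingCat.ofHom (PowerSeries.constantCoeff (R := B))) ≫ M.θ B := by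
  refine pullback.hom_ext ?_ ?_
  · simp only [θ, q₁, rigSection, Category.assoc, chartOver_fst, pullback.lift_fst]
    rw [M.section_eq, ← Spec.map_comp_assoc, ← Spec.map_comp_assoc]
    rw [specBase, ← Spec.map_comp_assoc]
    congr 2
    refine CommRingCat.hom_ext (RingHom.ext fun a => ?_)
    change algebraMap k B (PowerSeries.constantCoeff (M.emb₁ a)) =
      PowerSeries.constantCoeff (M.emb₁B B (Algebra.TensorProduct.includeRight a))
    rw [M.emb₁B_includeRight, ← PowerSeries.coeff_zero_eq_constantCoeff_apply,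
      ← PowerSeries.coeff_zero_eq_constantCoeff_apply, PowerSeries.coeff_map]
  · simp only [θ, q₁, rigSection, Category.assoc, chartOver_snd, pullback.lift_snd, ← Spec.map_comp]
    rw [← Spec.map_id]
    congr 1
    refine CommRingCat.hom_ext (RingHom.ext fun b => ?_)
    change b = PowerSeries.constantCoeff (M.emb₁B B (b ⊗ₜ 1))
    simp [emb₁B_tmul]

/-- An open set containing the section contains its formal neighbourhood. -/
theorem preimage_θ_eq_top {U : (M.XB B).Opens}
    (hU : rigSection c (specBase k B) ε ⁻¹ᵁ U = ⊤) : M.θ B ⁻¹ᵁ U = ⊤ := by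
  rw [M.rigSection_eq B, Scheme.Hom.comp_preimage] at hU
  by_contra hne
  let V : TopologicalSpace.Opens (PrimeSpectrum (PowerSeries B)) := M.θ B ⁻¹ᵁ U
  obtain ⟨I, hI⟩ : ∃ I : Ideal (PowerSeries B), (V : Set (PrimeSpectrum (PowerSeries B)))ᶜ =
      PrimeSpectrum.zeroLocus (I : Set (PowerSeries B)) :=
    ((PrimeSpectrum.isClosed_iff_zeroLocus_ideal _).mp V.2.isClosed_compl)
  have hItop : I ≠ ⊤ := by
    rintro rfl
    refine hne (Opens.ext (Set.compl_empty_iff.mp (hI.trans ?_)))
    exact PrimeSpectrum.zeroLocus_empty_iff_eq_top.mpr rfl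
  obtain ⟨m, hm, hIm⟩ := Ideal.exists_le_maximal I hItop
  have hX : PowerSeries.X ∈ m := by
    have hu : PowerSeries.X ∈ (⊥ : Ideal (PowerSeries B)).jacobson := by
      rw [Ideal.mem_jacobson_iff]
      intro y
      have hu : IsUnit (y * PowerSeries.X + 1) := PowerSeries.isUnit_iff_constantCoeff.mpr (by simp)
      obtain ⟨z, hz⟩ := hu.exists_left_inv
      exact ⟨z, by rw [Ideal.mem_bot]; linear_combination hz⟩
    exact Ideal.mem_sInf.mp hu ⟨bot_le, hm⟩
  have hsurj : Function.Surjective (PowerSeries.constantCoeff (R := B)) := fun b => ⟨PowerSeries.C b, by simp⟩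
  have hker : RingHom.ker (PowerSeries.constantCoeff (R := B)) ≤ m := by
    intro x hx
    obtain ⟨y, rfl⟩ := PowerSeries.X_dvd_iff.mpr hx
    exact m.mul_mem_right _ hX
  let p : PrimeSpectrum B := ⟨m.map (PowerSeries.constantCoeff (R := B)),
    (Ideal.map_isPrime_of_surjective hsurj hker)⟩
  have hp : Spec.map (CommRingCat.ofHom (PowerSeries.constantCoeff (R := B))) p =
      (⟨m, hm.isPrime⟩ : PrimeSpectrum (PowerSeries B)) := by
    apply PrimeSpectrum.ext
    change Ideal.comap _ (m.map _) = m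
    rw [CommRingCat.hom_ofHom, Ideal.comap_map_of_surjective _ hsurj, sup_eq_left]
    intro x hx
    exact hker hx
  have hin : (⟨m, hm.isPrime⟩ : PrimeSpectrum (PowerSeries B)) ∈ V := by
    rw [← hp]
    have : p ∈ (⊤ : (Spec (CommRingCat.of B)).Opens) := trivial
    rwa [← hU] at this
  have hout : (⟨m, hm.isPrime⟩ : PrimeSpectrum (PowerSeries B)) ∈ (V : Set _)ᶜ := by
    rw [hI]
    exact hIm
  exact hout hin

theorem preimage_θ'_eq_top {U : (M.XB B).Opens} (hU : M.θ B ⁻¹ᵁ U = ⊤) : M.θ' B ⁻¹ᵁ U = ⊤ := by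
  rw [M.θ'_eq, Scheme.Hom.comp_preimage, hU]
  rfl

theorem preimage_θ'_V₀ : M.θ' B ⁻¹ᵁ M.V₀ B = ⊤ :=
  Shf.preimage_opensRange_comp (M.q₀ B) _

theorem preimage_θ_V₁ : M.θ B ⁻¹ᵁ M.V₁ B = ⊤ :=
  Shf.preimage_opensRange_comp (M.q₁ B) _

/-- Functions on the punctured curve. -/
def coord₀ : M.D.Coord B ≃+* Γ(M.XB B, M.V₀ B) := Shf.chartEquiv (M.q₀ B)

/-- Functions on the neighbourhood of the section. -/
def coord₁ : M.Coord₁ B ≃+* Γ(M.XB B, M.V₁ B) := Shf.chartEquiv (M.q₁ B)

theorem evalAt_coord₀ (h : M.θ' B ⁻¹ᵁ M.V₀ B = ⊤) (r : M.D.Coord B) :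
    Shf.evalAt (M.θ' B) (M.V₀ B) h (M.coord₀ B r) = M.D.embB B r :=
  Shf.evalAt_comp_chartEquiv (M.q₀ B) _ h r

theorem evalAt_coord₁ (h : M.θ B ⁻¹ᵁ M.V₁ B = ⊤) (r : M.Coord₁ B) :
    Shf.evalAt (M.θ B) (M.V₁ B) h (M.coord₁ B r) = M.emb₁B B r :=
  Shf.evalAt_comp_chartEquiv (M.q₁ B) _ h r

theorem evalAt_θ' {U : (M.XB B).Opens} (h : M.θ B ⁻¹ᵁ U = ⊤) (f : Γ(M.XB B, U)) :
    Shf.evalAt (M.θ' B) U (M.preimage_θ'_eq_top B h) f =
      HahnSeries.ofPowerSeries ℤ B (Shf.evalAt (M.θ B) U h f) := by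
  rw [Shf.evalAt_congr (M.θ'_eq B) _ (by rw [← M.θ'_eq]; exact M.preimage_θ'_eq_top B h)]
  exact Shf.evalAt_comp (M.θ B) _ h _ f

end CurveModel

end Fermat.Agent.Jac
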