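/-
S25 U4: algebra near the section: the uniformiser, division, extension of functions across the section.
-/
import Fermat.Agent.Jac.Dictionary.Charts
import Mathlib.RingTheory.Flat.Basic
import Mathlib.RingTheory.Localization.Away.Basic

set_option autoImplicit false

noncomputable section

universe u

open CategoryTheory CategoryTheory.Limits AlgebraicGeometry TopologicalSpace NeronModelInfra
  AlgebraicGeometry.RelPicard TensorProduct

namespace Fermat.Agent.Jac.CurveModel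

variable {k : Type u} [Field k] {C : Scheme.{u}} {c : C ⟶ Spec (CommRingCat.of k)}
  {ε : SchemeHomOver (𝟙 (Spec (CommRingCat.of k))) c}
variable (M : CurveModel c ε) (B : Type u) [CommRing B] [Algebra k B]

/-- The uniformiser over the base. -/
def hB : M.Coord₁ B := Algebra.TensorProduct.includeRight M.h

/-- The value at the section. -/
def valσ : M.Coord₁ B →ₐ[B] B where
  toRingHom := (PowerSeries.constantCoeff (R := B)).comp (M.emb₁B B).toRingHom
  commutes' b := by simp [Algebra.TensorProduct.algebraMap_apply, M.emb₁B_tmul]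

@[simp]
theorem valσ_apply (x : M.Coord₁ B) : M.valσ B x = PowerSeries.constantCoeff (M.emb₁B B x) := rfl

theorem exists_emb₁B_hB : ∃ u : (PowerSeries B)ˣ,
    M.emb₁B B (M.hB B) = (PowerSeries.X : PowerSeries B) * (u : PowerSeries B) := by
  have h0 : PowerSeries.constantCoeff (M.emb₁B B (M.hB B)) = 0 := by
    rw [hB, M.emb₁B_includeRight, ← PowerSeries.coeff_zero_eq_constantCoeff_apply, PowerSeries.coeff_map,
      PowerSeries.coeff_zero_eq_constantCoeff_apply, M.coeff_zero_h, map_zero]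
  have h1 : PowerSeries.coeff 1 (M.emb₁B B (M.hB B)) = 1 := by
    rw [hB, M.emb₁B_includeRight, PowerSeries.coeff_map, M.coeff_one_h, map_one]
  obtain ⟨v, hv⟩ := PowerSeries.X_dvd_iff.mpr h0
  have hu : IsUnit v := by
    refine PowerSeries.isUnit_iff_constantCoeff.mpr ?_
    rw [hv, PowerSeries.coeff_succ_X_mul, PowerSeries.coeff_zero_eq_constantCoeff_apply] at h1
    rw [h1]
    exact isUnit_one
  exact ⟨hu.unit, hv⟩

theorem hB_dvd_sub (x : M.Coord₁ B) : M.hB B ∣ x - algebraMap B (M.Coord₁ B) (M.valσ B x) := by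
  induction x using TensorProduct.induction_on with
  | zero => simp
  | add x y hx hy =>
    have h := dvd_add hx hy
    convert h using 1
    rw [map_add, map_add]
    ring
  | tmul b a =>
    have hv : M.valσ B (b ⊗ₜ[k] a) = b * algebraMap k B (PowerSeries.constantCoeff (M.emb₁ a)) := by
      rw [valσ_apply, M.emb₁B_tmul, map_mul, PowerSeries.constantCoeff_C,
        ← PowerSeries.coeff_zero_eq_constantCoeff_apply, PowerSeries.coeff_map,
        PowerSeries.coeff_zero_eq_constantCoeff_apply]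
    obtain ⟨a', ha'⟩ := M.dvd_of_coeff_zero (a - algebraMap k M.A₁ (PowerSeries.constantCoeff (M.emb₁ a)))
      (by rw [map_sub, AlgHom.commutes, map_sub, PowerSeries.algebraMap_apply]; simp)
    refine ⟨b ⊗ₜ[k] a', ?_⟩
    rw [hv, hB, Algebra.TensorProduct.includeRight_apply, Algebra.TensorProduct.tmul_mul_tmul, one_mul,
      ← ha', TensorProduct.tmul_sub, Algebra.algebraMap_eq_smul_one (A := M.A₁),
      ← TensorProduct.smul_tmul, Algebra.smul_def]
    simp [Algebra.TensorProduct.algebraMap_apply, mul_comm]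

theorem pow_dvd_of_X_pow_dvd : ∀ (m : ℕ) (r : M.Coord₁ B),
    PowerSeries.X ^ m ∣ M.emb₁B B r → M.hB B ^ m ∣ r
  | 0, r, _ => by simp
  | m + 1, r, hr => by
    have h0 : M.valσ B r = 0 :=
      PowerSeries.X_dvd_iff.mp ((dvd_pow_self _ m.succ_ne_zero).trans hr)
    obtain ⟨r', hr'⟩ := M.hB_dvd_sub B r
    rw [h0, map_zero, sub_zero] at hr'
    obtain ⟨u, hu⟩ := M.exists_emb₁B_hB B
    have : PowerSeries.X ^ m ∣ M.emb₁B B r' := by
      obtain ⟨q, hq⟩ := hr
      rw [hr', map_mul, hu, mul_assoc, pow_succ', mul_assoc] at hq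
      refine (Units.dvd_mul_left (u := u)).mp ⟨q, ?_⟩
      exact PowerSeries.X_mul_cancel hq
    obtain ⟨r'', hr''⟩ := pow_dvd_of_X_pow_dvd m r' this
    exact ⟨r'', by rw [hr', hr'', pow_succ']; ring⟩

theorem hB_regular : IsRegular (M.hB B) := by
  have hA : Function.Injective (LinearMap.mulLeft k M.h) := by
    refine mul_right_injective₀ ?_
    intro h0
    have := M.coeff_one_h
    rw [h0, map_zero, map_zero] at this
    exact zero_ne_one this
  have h := Module.Flat.lTensor_preserves_injective_linearMap (M := B) _ hA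
  have e : (LinearMap.lTensor B (LinearMap.mulLeft k M.h) : M.Coord₁ B → M.Coord₁ B) =
      fun x => M.hB B * x := by
    funext x
    induction x using TensorProduct.induction_on with
    | zero => simp
    | add x y hx hy => rw [map_add, hx, hy, mul_add]
    | tmul b a => simp [hB]
  rw [e] at h
  exact ⟨h, fun x y hxy => h (by simpa [mul_comm] using hxy)⟩

theorem V₀_inf_V₁ : M.V₀ B ⊓ M.V₁ B = (M.XB B).basicOpen (M.coord₁ B (M.hB B)) := by
  have hle : (M.XB B).basicOpen (M.coord₁ B (M.hB B)) ≤ M.V₁ B := (M.XB B).basicOpen_le _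
  refine Opens.ext (Set.ext fun x => ⟨fun hx => ?_, fun hx => ?_⟩)
  · obtain ⟨y, rfl⟩ := hx.2
    have : y ∈ M.q₁ B ⁻¹ᵁ M.V₀ B := hx.1
    rw [M.preimage_V₀] at this
    change y ∈ M.q₁ B ⁻¹ᵁ (M.XB B).basicOpen (Shf.chartEquiv (M.q₁ B) (M.hB B))
    rw [Shf.preimage_basicOpen_chartEquiv]
    exact this
  · obtain ⟨y, rfl⟩ := hle hx
    refine ⟨?_, hle hx⟩
    have : y ∈ M.q₁ B ⁻¹ᵁ (M.XB B).basicOpen (Shf.chartEquiv (M.q₁ B) (M.hB B)) := hx
    rw [Shf.preimage_basicOpen_chartEquiv] at this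
    change y ∈ M.q₁ B ⁻¹ᵁ M.V₀ B
    rw [M.preimage_V₀]
    exact this

theorem preimage_basicOpen_eq_top {X : Scheme.{u}} {S : CommRingCat.{u}} (f : Spec S ⟶ X)
    {U : X.Opens} (h : f ⁻¹ᵁ U = ⊤) {r : Γ(X, U)} (hr : IsUnit (Shf.evalAt f U h r)) :
    f ⁻¹ᵁ X.basicOpen r = ⊤ := by
  have hu : IsUnit (f.appLE U ⊤ h.ge r) := by
    rw [← isUnit_map_iff ((Scheme.ΓSpecIso S).commRingCatIsoToRingEquiv)]
    exact hr
  have := (Spec S).basicOpen_of_isUnit hu
  rw [Scheme.basicOpen_appLE, top_inf_eq] at this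
  exact this

/-- The basic neighbourhood of the section attached to a function. -/
def nbhd (y : M.Coord₁ B) : (M.XB B).Opens := (M.XB B).basicOpen (M.coord₁ B y)

theorem preimage_θ_nbhd {y : M.Coord₁ B} (hy : IsUnit (M.valσ B y)) :
    M.θ B ⁻¹ᵁ M.nbhd B y = ⊤ := by
  refine preimage_basicOpen_eq_top _ (M.preimage_θ_V₁ B) ?_
  rw [evalAt_coord₁]
  exact PowerSeries.isUnit_iff_constantCoeff.mpr hy

theorem covers_nbhd {y : M.Coord₁ B} (hy : IsUnit (M.valσ B y)) (x : M.XB B) :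
    x ∈ M.V₀ B ∨ x ∈ M.nbhd B y := by
  refine or_iff_not_imp_left.mpr fun hx => ?_
  obtain ⟨P, rfl⟩ := (M.covers_B B x).resolve_left hx
  have hh : M.hB B ∈ P.asIdeal := by
    by_contra hh
    refine hx ?_
    change P ∈ M.q₁ B ⁻¹ᵁ M.V₀ B
    rw [M.preimage_V₀]
    exact hh
  change P ∈ M.q₁ B ⁻¹ᵁ (M.XB B).basicOpen (Shf.chartEquiv (M.q₁ B) y)
  rw [Shf.preimage_basicOpen_chartEquiv]
  intro hyP
  have h1 : algebraMap B (M.Coord₁ B) (M.valσ B y) ∈ P.asIdeal := by
    have := P.asIdeal.sub_mem hyP (P.asIdeal.mem_of_dvd (M.hB_dvd_sub B y) hh)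
    simpa using this
  exact P.isPrime.ne_top (P.asIdeal.eq_top_of_isUnit_mem h1 (hy.map _))

theorem exists_nbhd_le {U : (M.XB B).Opens} (hU : rigSection c (specBase k B) ε ⁻¹ᵁ U = ⊤) :
    ∃ y : M.Coord₁ B, M.valσ B y = 1 ∧ M.nbhd B y ≤ U := by
  let V : TopologicalSpace.Opens (PrimeSpectrum (M.Coord₁ B)) := M.q₁ B ⁻¹ᵁ U
  obtain ⟨I, hI⟩ : ∃ I : Ideal (M.Coord₁ B), (V : Set (PrimeSpectrum (M.Coord₁ B)))ᶜ =
      PrimeSpectrum.zeroLocus (I : Set (M.Coord₁ B)) :=
    (PrimeSpectrum.isClosed_iff_zeroLocus_ideal _).mp V.2.isClosed_compl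
  have htop : I ⊔ Ideal.span {M.hB B} = ⊤ := by
    by_contra hne
    obtain ⟨m, hm, hle⟩ := Ideal.exists_le_maximal _ hne
    have hsurj : Function.Surjective (M.valσ B : M.Coord₁ B →+* B) := fun b =>
      ⟨algebraMap B _ b, (M.valσ B).commutes b⟩
    have hker : RingHom.ker (M.valσ B : M.Coord₁ B →+* B) ≤ m := fun x hx => by
      have h := M.hB_dvd_sub B x
      rw [show M.valσ B x = 0 from hx, map_zero, sub_zero] at h
      exact m.mem_of_dvd h (hle (Ideal.mem_sup_right (Ideal.mem_span_singleton_self _)))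
    let p : PrimeSpectrum B := ⟨m.map (M.valσ B : M.Coord₁ B →+* B),
      Ideal.map_isPrime_of_surjective hsurj hker⟩
    have hp : Spec.map (CommRingCat.ofHom (M.valσ B).toRingHom) p =
        (⟨m, hm.isPrime⟩ : PrimeSpectrum (M.Coord₁ B)) := by
      refine PrimeSpectrum.ext ?_
      change Ideal.comap (M.valσ B : M.Coord₁ B →+* B) (m.map _) = m
      rw [Ideal.comap_map_of_surjective _ hsurj, sup_eq_left]
      exact fun x hx => hker hx
    have hσ : rigSection c (specBase k B) ε =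
        Spec.map (CommRingCat.ofHom (M.valσ B).toRingHom) ≫ M.q₁ B := by
      rw [M.rigSection_eq, θ, ← Spec.map_comp_assoc]
      rfl
    have hpU : p ∈ rigSection c (specBase k B) ε ⁻¹ᵁ U := by rw [hU]; trivial
    rw [hσ] at hpU
    have hin : (⟨m, hm.isPrime⟩ : PrimeSpectrum (M.Coord₁ B)) ∈ V := by
      rw [← hp]; exact hpU
    have hout : (⟨m, hm.isPrime⟩ : PrimeSpectrum (M.Coord₁ B)) ∈ (V : Set _)ᶜ := by
      rw [hI]
      exact fun x hx => hle (Ideal.mem_sup_left hx)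
    exact hout hin
  obtain ⟨i, hi, j, hj, hij⟩ := Submodule.mem_sup.mp ((Ideal.eq_top_iff_one _).mp htop)
  refine ⟨i, ?_, ?_⟩
  · obtain ⟨r, rfl⟩ := Ideal.mem_span_singleton'.mp hj
    have h := congrArg (M.valσ B) hij
    obtain ⟨u, hu⟩ := M.exists_emb₁B_hB B
    rw [map_add, map_mul, map_one, show M.valσ B (M.hB B) = 0 by simp [hu], mul_zero, add_zero] at h
    exact h
  · intro x hx
    obtain ⟨P, rfl⟩ := ((M.XB B).basicOpen_le _ hx : x ∈ M.V₁ B)
    by_contra hP
    have hP' : P ∈ (V : Set (PrimeSpectrum (M.Coord₁ B)))ᶜ := hP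
    rw [hI] at hP'
    have : P ∈ M.q₁ B ⁻¹ᵁ (M.XB B).basicOpen (Shf.chartEquiv (M.q₁ B) i) := hx
    rw [Shf.preimage_basicOpen_chartEquiv] at this
    exact this (hP' hi)

theorem nbhd_mul (y z : M.Coord₁ B) : M.nbhd B (y * z) = M.nbhd B y ⊓ M.nbhd B z := by
  simp [nbhd, Scheme.basicOpen_mul]

theorem nbhd_le_V₁ (y : M.Coord₁ B) : M.nbhd B y ≤ M.V₁ B := (M.XB B).basicOpen_le _

theorem nbhd_inf_V₀ (y : M.Coord₁ B) : M.nbhd B y ⊓ M.V₀ B = M.nbhd B (y * M.hB B) := by
  rw [nbhd_mul]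
  change _ = M.nbhd B y ⊓ (M.XB B).basicOpen (M.coord₁ B (M.hB B))
  rw [← M.V₀_inf_V₁]
  refine le_antisymm (le_inf inf_le_left (le_inf inf_le_right ?_))
    (le_inf inf_le_left (inf_le_right.trans inf_le_left))
  exact inf_le_left.trans (M.nbhd_le_V₁ B y)

theorem isLocalization_nbhd (y : M.Coord₁ B) :
    letI := (Shf.resO (M.nbhd_le_V₁ B y)).toAlgebra
    IsLocalization.Away (M.coord₁ B y) Γ(M.XB B, M.nbhd B y) :=
  (Shf.isAffineOpen_chart (M.q₁ B)).isLocalization_basicOpen _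

/-- A function near the section whose expansion has no polar part extends across the section. -/
theorem existsUnique_extend {y : M.Coord₁ B} (hy : IsUnit (M.valσ B y))
    (f : Γ(M.XB B, M.nbhd B y ⊓ M.V₀ B)) {φ : PowerSeries B}
    (hf : Shf.evalAt (M.θ' B) _ (Shf.preimage_inf_eq_top
      (M.preimage_θ'_eq_top B (M.preimage_θ_nbhd B hy)) (M.preimage_θ'_V₀ B)) f =
        HahnSeries.ofPowerSeries ℤ B φ) :
    ∃! g : Γ(M.XB B, M.nbhd B y), Shf.resO inf_le_left g = f := by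
  have hz := M.isLocalization_nbhd B (y * M.hB B)
  have hy' := M.isLocalization_nbhd B y
  have heq := M.nbhd_inf_V₀ B y
  let f' := Shf.resO heq.ge f
  letI := (Shf.resO (M.nbhd_le_V₁ B (y * M.hB B))).toAlgebra
  letI := (Shf.resO (M.nbhd_le_V₁ B y)).toAlgebra
  have back : ∀ g g' : Γ(M.XB B, M.nbhd B y ⊓ M.V₀ B), Shf.resO heq.ge g = Shf.resO heq.ge g' →
      g = g' := fun g g' h => by
    have := congrArg (Shf.resO heq.le) h
    simpa using this
  have hsub : M.nbhd B (y * M.hB B) ≤ M.nbhd B y := heq.ge.trans inf_le_left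
  have huy : IsUnit (Shf.resO (M.nbhd_le_V₁ B y) (M.coord₁ B y)) :=
    IsLocalization.Away.algebraMap_isUnit (M.coord₁ B y)
  refine existsUnique_of_exists_of_unique ?_ ?_
  · obtain ⟨m, r, hr⟩ : ∃ (m : ℕ) (r : M.Coord₁ B),
        f' * Shf.resO (M.nbhd_le_V₁ B _) (M.coord₁ B (y * M.hB B)) ^ m =
          Shf.resO (M.nbhd_le_V₁ B _) (M.coord₁ B r) := by
      obtain ⟨m, r, hr⟩ := IsLocalization.Away.surj (M.coord₁ B (y * M.hB B)) f'
      exact ⟨m, (M.coord₁ B).symm r, by rw [RingEquiv.apply_symm_apply]; exact hr⟩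
    have hθ : M.θ B ⁻¹ᵁ M.nbhd B y = ⊤ := M.preimage_θ_nbhd B hy
    have htop : M.θ' B ⁻¹ᵁ M.nbhd B (y * M.hB B) = ⊤ := by
      rw [← heq]
      exact Shf.preimage_inf_eq_top (M.preimage_θ'_eq_top B hθ) (M.preimage_θ'_V₀ B)
    have hev : ∀ s : M.Coord₁ B, Shf.evalAt (M.θ' B) _ htop
        (Shf.resO (M.nbhd_le_V₁ B _) (M.coord₁ B s)) =
          HahnSeries.ofPowerSeries ℤ B (M.emb₁B B s) := fun s => by
      rw [Shf.evalAt_res, M.evalAt_θ' B (M.preimage_θ_V₁ B), M.evalAt_coord₁]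
    have h2 := congrArg (Shf.evalAt (M.θ' B) _ htop) hr
    rw [map_mul, map_pow, hev, hev, Shf.evalAt_res, hf, ← map_pow, ← map_mul] at h2
    have h3 := HahnSeries.ofPowerSeries_injective h2
    obtain ⟨u, hu⟩ := M.exists_emb₁B_hB B
    obtain ⟨r', hr'⟩ := M.pow_dvd_of_X_pow_dvd B m r
      ⟨φ * M.emb₁B B y ^ m * (u : PowerSeries B) ^ m, by rw [← h3, map_mul, hu]; ring⟩
    refine ⟨Shf.resO (M.nbhd_le_V₁ B y) (M.coord₁ B r') * ↑(huy.unit⁻¹ ^ m), back _ _ ?_⟩
    rw [Shf.resO_resO]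
    have hu2 : IsUnit (Shf.resO (M.nbhd_le_V₁ B _) (M.coord₁ B (y * M.hB B)) ^ m) :=
      (IsLocalization.Away.algebraMap_isUnit (S := Γ(M.XB B, M.nbhd B (y * M.hB B)))
        (M.coord₁ B (y * M.hB B))).pow m
    refine hu2.mul_right_cancel (Eq.trans ?_ hr.symm)
    have hinv : Shf.resO hsub (↑(huy.unit⁻¹ ^ m) : Γ(M.XB B, M.nbhd B y)) *
        Shf.resO hsub (Shf.resO (M.nbhd_le_V₁ B y) (M.coord₁ B y)) ^ m = 1 := by
      rw [← map_pow, ← map_mul, Units.val_pow_eq_pow_val, ← mul_pow, IsUnit.val_inv_mul, one_pow,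
        map_one]
    rw [Shf.resO_resO] at hinv
    simp only [map_mul, map_pow, mul_pow, Shf.resO_resO, hr']
    linear_combination (Shf.resO (M.nbhd_le_V₁ B (y * M.hB B)) (M.coord₁ B r') *
      Shf.resO (M.nbhd_le_V₁ B (y * M.hB B)) (M.coord₁ B (M.hB B)) ^ m) * hinv
  · intro g g' hg hg'
    rw [← sub_eq_zero]
    obtain ⟨m, r, hr⟩ : ∃ (m : ℕ) (r : M.Coord₁ B),
        (g - g') * Shf.resO (M.nbhd_le_V₁ B y) (M.coord₁ B y) ^ m =
          Shf.resO (M.nbhd_le_V₁ B y) (M.coord₁ B r) := by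
      obtain ⟨m, r, hr⟩ := IsLocalization.Away.surj (M.coord₁ B y) (g - g')
      exact ⟨m, (M.coord₁ B).symm r, by rw [RingEquiv.apply_symm_apply]; exact hr⟩
    have h0 : Shf.resO hsub (g - g') = 0 := by
      have := congrArg (Shf.resO heq.ge) (hg.trans hg'.symm)
      rw [Shf.resO_resO, Shf.resO_resO] at this
      rw [map_sub]
      exact sub_eq_zero.mpr this
    have h1 : algebraMap Γ(M.XB B, M.V₁ B) Γ(M.XB B, M.nbhd B (y * M.hB B)) (M.coord₁ B r) = 0 := by
      have := congrArg (Shf.resO hsub) hr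
      rw [map_mul, h0, zero_mul, Shf.resO_resO] at this
      exact this.symm
    obtain ⟨⟨_, N, rfl⟩, hN⟩ := (IsLocalization.map_eq_zero_iff
      (Submonoid.powers (M.coord₁ B (y * M.hB B))) _ _).mp h1
    have hN' : (y * M.hB B) ^ N * r = 0 := (M.coord₁ B).injective (by simpa using hN)
    have h2 : y ^ N * r = 0 := ((M.hB_regular B).pow N).left (by
      simp only [mul_zero]
      rw [← hN']
      ring)
    have h3 := congrArg (fun s => Shf.resO (M.nbhd_le_V₁ B y) (M.coord₁ B s)) h2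
    simp only [map_mul, map_pow, map_zero] at h3
    rw [← hr] at h3
    refine ((huy.pow N).mul (huy.pow m)).mul_left_cancel ?_
    linear_combination h3

end Fermat.Agent.Jac.CurveModel
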