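/-
S25 U4: expansions of sections of an invertible module at the base point, their base change.
-/
import Fermat.Agent.Jac.Dictionary.Near
import Fermat.Agent.Jac.Sheaf.Dual
import Fermat.Agent.Jac.Lat

set_option autoImplicit false

noncomputable section

universe u

open CategoryTheory CategoryTheory.Limits AlgebraicGeometry TopologicalSpace NeronModelInfra
  AlgebraicGeometry.RelPicard TensorProduct

namespace Fermat.Agent.Jac.CurveModel

variable {k : Type u} [Field k] {C : Scheme.{u}} {c : C ⟶ Spec (CommRingCat.of k)}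
  {ε : SchemeHomOver (𝟙 (Spec (CommRingCat.of k))) c}
variable (M : CurveModel c ε) (B : Type u) [CommRing B] [Algebra k B]

theorem preimage_σ_eq_top {U : (M.XB B).Opens} (hU : M.θ B ⁻¹ᵁ U = ⊤) :
    rigSection c (specBase k B) ε ⁻¹ᵁ U = ⊤ := by
  rw [M.rigSection_eq, Scheme.Hom.comp_preimage, hU]
  rfl

theorem exists_nbhd_le' {U : (M.XB B).Opens} (hU : M.θ B ⁻¹ᵁ U = ⊤) :
    ∃ y : M.Coord₁ B, IsUnit (M.valσ B y) ∧ M.nbhd B y ≤ U := by
  obtain ⟨y, hy, hle⟩ := M.exists_nbhd_le B (M.preimage_σ_eq_top B hU)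
  exact ⟨y, hy ▸ isUnit_one, hle⟩

theorem emb₁B_injective : Function.Injective (M.emb₁B B) := by
  let b := Module.Free.chooseBasis k B
  refine (injective_iff_map_eq_zero _).mpr fun x hx => ?_
  obtain ⟨s, rfl⟩ := TensorProduct.eq_repr_basis_left b x
  have hs : ∀ (i : _) (n : ℕ), PowerSeries.coeff n (M.emb₁ (s i)) = 0 := by
    intro i n
    have h := congrArg (fun z => b.repr (PowerSeries.coeff n z) i) hx
    simp only [Finsupp.sum, map_sum, map_zero, Finsupp.coe_zero, Pi.zero_apply, M.emb₁B_tmul,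
      PowerSeries.coeff_C_mul, PowerSeries.coeff_map] at h
    rw [Finsupp.finsetSum_apply] at h
    simp only [← Algebra.commutes, ← Algebra.smul_def, map_smul, b.repr_self, Finsupp.smul_apply,
      smul_eq_mul, Finsupp.single_apply] at h
    simp only [mul_ite, mul_one, mul_zero, Finset.sum_ite_eq', Finsupp.mem_support_iff] at h
    by_cases hi : s i = 0
    · simp [hi]
    · simpa [hi] using h
  have h0 : ∀ i, s i = 0 := fun i => M.emb₁_injective (by
    rw [map_zero]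
    exact PowerSeries.ext fun n => by rw [hs, map_zero])
  simp [Finsupp.sum, h0]

/-- Near the section functions are determined by their expansions. -/
theorem evalAt_θ'_injective {y : M.Coord₁ B} (hy : IsUnit (M.valσ B y))
    (h : M.θ' B ⁻¹ᵁ (M.nbhd B y ⊓ M.V₀ B) = ⊤) :
    Function.Injective (Shf.evalAt (M.θ' B) (M.nbhd B y ⊓ M.V₀ B) h) := by
  refine (injective_iff_map_eq_zero _).mpr fun f hf => ?_
  obtain ⟨g, hg, huniq⟩ := M.existsUnique_extend B hy f (φ := 0) (by rw [map_zero]; exact hf)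
  obtain ⟨m, r, hr⟩ : ∃ (m : ℕ) (r : M.Coord₁ B),
      g * Shf.resO (M.nbhd_le_V₁ B y) (M.coord₁ B y) ^ m =
        Shf.resO (M.nbhd_le_V₁ B y) (M.coord₁ B r) := by
    letI := (Shf.resO (M.nbhd_le_V₁ B y)).toAlgebra
    haveI := M.isLocalization_nbhd B y
    obtain ⟨m, r, hr⟩ := IsLocalization.Away.surj (M.coord₁ B y) g
    exact ⟨m, (M.coord₁ B).symm r, by rw [RingEquiv.apply_symm_apply]; exact hr⟩
  have hθ := M.preimage_θ_nbhd B hy
  have h2 := congrArg (Shf.evalAt (M.θ B) _ hθ) hr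
  rw [map_mul, map_pow, Shf.evalAt_res, Shf.evalAt_res, M.evalAt_coord₁, M.evalAt_coord₁] at h2
  have hg0 : Shf.evalAt (M.θ B) _ hθ g = 0 := by
    apply HahnSeries.ofPowerSeries_injective (Γ := ℤ)
    rw [map_zero, ← M.evalAt_θ' B hθ, ← hf, ← hg, Shf.evalAt_res]
  rw [hg0, zero_mul] at h2
  have : r = 0 := M.emb₁B_injective B (by rw [map_zero]; exact h2.symm)
  rw [this, map_zero, map_zero] at hr
  letI := (Shf.resO (M.nbhd_le_V₁ B y)).toAlgebra
  haveI := M.isLocalization_nbhd B y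
  have hu : IsUnit (Shf.resO (M.nbhd_le_V₁ B y) (M.coord₁ B y) ^ m) :=
    (IsLocalization.Away.algebraMap_isUnit (M.coord₁ B y)).pow m
  rw [hu.mul_left_eq_zero] at hr
  rw [← hg, hr, map_zero]

variable {N N' : (M.XB B).Modules} {U U' : (M.XB B).Opens} {e : Γ(N, U)} {e' : Γ(N', U')}

/-- The expansion of a section over the punctured curve in a frame near the section. -/
def ex (he : Shf.IsFrame N e) (hU : M.θ B ⁻¹ᵁ U = ⊤) (s : Γ(N, M.V₀ B)) : LaurentSeries B :=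
  Shf.evalAt (M.θ' B) (M.V₀ B ⊓ U)
    (Shf.preimage_inf_eq_top (M.preimage_θ'_V₀ B) (M.preimage_θ'_eq_top B hU))
    (he.coeff inf_le_right (Shf.resM N inf_le_left s))

theorem ex_eq (he : Shf.IsFrame N e) (hU : M.θ B ⁻¹ᵁ U = ⊤) (s : Γ(N, M.V₀ B))
    {W : (M.XB B).Opens} (hW0 : W ≤ M.V₀ B) (hWU : W ≤ U) (hW : M.θ' B ⁻¹ᵁ W = ⊤)
    {f : Γ(M.XB B, W)} (hf : f • Shf.resM N hWU e = Shf.resM N hW0 s) :
    M.ex B he hU s = Shf.evalAt (M.θ' B) W hW f := by
  have h := he.resO_coeff (inf_le_right : M.V₀ B ⊓ U ≤ U) (le_inf hW0 hWU) (Shf.resM N inf_le_left s)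
  rw [Shf.resM_resM, he.coeff_eq _ hf] at h
  rw [ex, ← h, Shf.evalAt_res]

theorem ex_add (he : Shf.IsFrame N e) (hU : M.θ B ⁻¹ᵁ U = ⊤) (s s' : Γ(N, M.V₀ B)) :
    M.ex B he hU (s + s') = M.ex B he hU s + M.ex B he hU s' := by
  rw [M.ex_eq B he hU (s + s') (W := M.V₀ B ⊓ U) inf_le_left inf_le_right
    (Shf.preimage_inf_eq_top (M.preimage_θ'_V₀ B) (M.preimage_θ'_eq_top B hU))
    (f := he.coeff inf_le_right (Shf.resM N inf_le_left s) +
      he.coeff inf_le_right (Shf.resM N inf_le_left s'))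
    (by rw [add_smul, he.coeff_spec, he.coeff_spec, map_add]), map_add]
  rfl

theorem ex_smul (he : Shf.IsFrame N e) (hU : M.θ B ⁻¹ᵁ U = ⊤) (r : Γ(M.XB B, M.V₀ B))
    (s : Γ(N, M.V₀ B)) :
    M.ex B he hU (r • s) = M.D.embB B ((M.coord₀ B).symm r) * M.ex B he hU s := by
  rw [M.ex_eq B he hU (r • s) (W := M.V₀ B ⊓ U) inf_le_left inf_le_right
    (Shf.preimage_inf_eq_top (M.preimage_θ'_V₀ B) (M.preimage_θ'_eq_top B hU))
    (f := Shf.resO inf_le_left r * he.coeff inf_le_right (Shf.resM N inf_le_left s))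
    (by rw [mul_smul, he.coeff_spec, Shf.resM_smul]), map_mul, Shf.evalAt_res]
  conv_lhs => rw [← (M.coord₀ B).apply_symm_apply r, M.evalAt_coord₀]
  rfl

theorem ex_res (he : Shf.IsFrame N e) (hU : M.θ B ⁻¹ᵁ U = ⊤) {V : (M.XB B).Opens} (h : V ≤ U)
    (hV : M.θ B ⁻¹ᵁ V = ⊤) (s : Γ(N, M.V₀ B)) :
    M.ex B (he.res h) hV s = M.ex B he hU s := by
  symm
  refine M.ex_eq B he hU s inf_le_left (inf_le_right.trans h)
    (Shf.preimage_inf_eq_top (M.preimage_θ'_V₀ B) (M.preimage_θ'_eq_top B hV)) ?_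
  conv_rhs => rw [← (he.res h).coeff_spec inf_le_right (Shf.resM N inf_le_left s)]
  rw [Shf.resM_resM]

/-- Changing the frame scales the expansion by a power series. -/
theorem ex_frame_smul {e₂ : Γ(N, U)} (he : Shf.IsFrame N e) (he₂ : Shf.IsFrame N e₂)
    (hU : M.θ B ⁻¹ᵁ U = ⊤) {a : Γ(M.XB B, U)} (h : e₂ = a • e) (s : Γ(N, M.V₀ B)) :
    M.ex B he hU s =
      HahnSeries.ofPowerSeries ℤ B (Shf.evalAt (M.θ B) U hU a) * M.ex B he₂ hU s := by
  rw [← M.evalAt_θ' B hU, M.ex_eq B he hU s (W := M.V₀ B ⊓ U) inf_le_left inf_le_right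
    (Shf.preimage_inf_eq_top (M.preimage_θ'_V₀ B) (M.preimage_θ'_eq_top B hU))
    (f := Shf.resO inf_le_right a * he₂.coeff inf_le_right (Shf.resM N inf_le_left s))
    (by
      rw [mul_comm, mul_smul, ← Shf.resM_smul, ← h]
      exact he₂.coeff_spec _ _), map_mul, Shf.evalAt_res]
  rfl

theorem ex_map (he : Shf.IsFrame N e) (hU : M.θ B ⁻¹ᵁ U = ⊤) (φ : N ≅ N') (s : Γ(N, M.V₀ B)) :
    M.ex B (he.map φ) hU (φ.hom.app _ s) = M.ex B he hU s := by
  refine M.ex_eq B (he.map φ) hU _ inf_le_left inf_le_right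
    (Shf.preimage_inf_eq_top (M.preimage_θ'_V₀ B) (M.preimage_θ'_eq_top B hU)) ?_
  rw [← Shf.app_resM, ← Shf.app_resM, ← Scheme.Modules.Hom.app_smul, he.coeff_spec]

/-- The expansions of the sections over the punctured curve. -/
def latSub (he : Shf.IsFrame N e) (hU : M.θ B ⁻¹ᵁ U = ⊤) :
    Submodule (M.D.reg B) (LaurentSeries B) where
  carrier := Set.range (M.ex B he hU)
  add_mem' := by
    rintro _ _ ⟨s, rfl⟩ ⟨s', rfl⟩
    exact ⟨s + s', M.ex_add B he hU s s'⟩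
  zero_mem' := ⟨0, by
    have := M.ex_smul B he hU 0 0
    simpa using this⟩
  smul_mem' := by
    rintro ⟨_, r, rfl⟩ _ ⟨s, rfl⟩
    exact ⟨M.coord₀ B r • s, by rw [M.ex_smul, RingEquiv.symm_apply_apply]; rfl⟩

theorem mem_latSub {he : Shf.IsFrame N e} {hU : M.θ B ⁻¹ᵁ U = ⊤} {x : LaurentSeries B} :
    x ∈ M.latSub B he hU ↔ ∃ s, M.ex B he hU s = x := Iff.rfl

theorem latSub_res (he : Shf.IsFrame N e) (hU : M.θ B ⁻¹ᵁ U = ⊤) {V : (M.XB B).Opens} (h : V ≤ U)
    (hV : M.θ B ⁻¹ᵁ V = ⊤) : M.latSub B (he.res h) hV = M.latSub B he hU := by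
  refine SetLike.ext fun x => ?_
  simp only [mem_latSub, M.ex_res B he hU h hV]

section Dual

variable {F : Shf.DualFrames N N'} {i₀ : F.ι} (hi : M.θ B ⁻¹ᵁ F.U i₀ = ⊤)

theorem ex_mul (hi : M.θ B ⁻¹ᵁ F.U i₀ = ⊤) {s : Γ(N, M.V₀ B)} {t : Γ(N', M.V₀ B)}
    {P : Γ(M.XB B, M.V₀ B)}
    (hP : ∀ (i : F.ι) (W : (M.XB B).Opens) (hV : W ≤ M.V₀ B) (hiW : W ≤ F.U i),
      Shf.resO hV P = (F.isFrame i).coeff hiW (Shf.resM N hV s) *
        (F.isFrame' i).coeff hiW (Shf.resM N' hV t)) :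
    M.ex B (F.isFrame i₀) hi s * M.ex B (F.isFrame' i₀) hi t =
      M.D.embB B ((M.coord₀ B).symm P) := by
  rw [ex, ex, ← map_mul, ← hP i₀ _ inf_le_left inf_le_right, Shf.evalAt_res]
  conv_lhs => rw [← (M.coord₀ B).apply_symm_apply P, M.evalAt_coord₀]

theorem latSub_mul_latSub (hi : M.θ B ⁻¹ᵁ F.U i₀ = ⊤) :
    M.latSub B (F.isFrame i₀) hi * M.latSub B (F.isFrame' i₀) hi = 1 := by
  classical
  refine le_antisymm (Submodule.mul_le.mpr ?_) (Submodule.one_le.mpr ?_)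
  · rintro _ ⟨s, rfl⟩ _ ⟨t, rfl⟩
    obtain ⟨P, hP⟩ := F.exists_pair s t
    rw [M.ex_mul B hi hP]
    exact Submodule.mem_one.mpr ⟨⟨_, (M.coord₀ B).symm P, rfl⟩, rfl⟩
  have haff : IsAffineOpen (M.V₀ B) := Shf.isAffineOpen_chart (M.q₀ B)
  let J : Ideal Γ(M.XB B, M.V₀ B) :=
    { carrier := {r | M.D.embB B ((M.coord₀ B).symm r) ∈
        M.latSub B (F.isFrame i₀) hi * M.latSub B (F.isFrame' i₀) hi}
      add_mem' := fun {a b} ha hb => by
        simp only [Set.mem_setOf_eq, map_add] at ha hb ⊢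
        exact add_mem ha hb
      zero_mem' := by simp
      smul_mem' := fun r a ha => by
        simp only [Set.mem_setOf_eq, smul_eq_mul, map_mul] at ha ⊢
        exact Submodule.smul_mem _ (⟨_, (M.coord₀ B).symm r, rfl⟩ : M.D.reg B) ha }
  let T : Set Γ(M.XB B, M.V₀ B) := {a | ∃ i, (M.XB B).basicOpen a ≤ F.U i}
  have hT : Ideal.span T = ⊤ := by
    rw [← haff.self_le_iSup_basicOpen_iff]
    intro x hx
    obtain ⟨i, hi'⟩ := F.covers x
    obtain ⟨a, haV, hxa⟩ := haff.exists_basicOpen_le (V := F.U i) ⟨x, hi'⟩ hx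
    exact Opens.mem_iSup.mpr ⟨⟨a, i, haV⟩, hxa⟩
  have hJ : J = ⊤ := by
    have hle : Ideal.span T ≤ J.radical := by
      refine Ideal.span_le.mpr ?_
      rintro a ⟨i, hai⟩
      have hle0 := (M.XB B).basicOpen_le a
      obtain ⟨n, s, hs⟩ := Shf.exists_extend
        (Shf.isInvertible_of_frames fun x => (F.covers x).elim fun i hi => ⟨_, hi, _, F.isFrame i⟩)
        haff a (Shf.resM N hai (F.e i))
      obtain ⟨n', t, ht⟩ := Shf.exists_extend
        (Shf.isInvertible_of_frames fun x => (F.covers x).elim fun i hi => ⟨_, hi, _, F.isFrame' i⟩)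
        haff a (Shf.resM N' hai (F.e' i))
      obtain ⟨P, hP⟩ := F.exists_pair s t
      have h := hP i _ hle0 hai
      rw [(F.isFrame i).coeff_eq hai hs.symm, (F.isFrame' i).coeff_eq hai ht.symm, ← pow_add,
        ← map_pow] at h
      obtain ⟨K, hK⟩ := Shf.exists_pow_smul_eq_zero
        (Scheme.Modules.isInvertible_unit (M.XB B)) haff a (P - a ^ (n + n') : Γ(M.XB B, M.V₀ B)) (by
          change Shf.resO hle0 (P - a ^ (n + n')) = 0
          rw [map_sub, h, sub_self])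
      have hK' : a ^ K * (P - a ^ (n + n')) = 0 := hK
      refine ⟨K + (n + n'), ?_⟩
      change M.D.embB B ((M.coord₀ B).symm (a ^ (K + (n + n')))) ∈
        M.latSub B (F.isFrame i₀) hi * M.latSub B (F.isFrame' i₀) hi
      rw [pow_add, show a ^ K * a ^ (n + n') = a ^ K * P by linear_combination -hK',
        map_mul, map_mul, ← M.ex_mul B hi hP, ← mul_assoc, ← M.ex_smul]
      exact Submodule.mul_mem_mul ⟨_, rfl⟩ ⟨_, rfl⟩
    rw [hT, top_le_iff, Ideal.radical_eq_top] at hle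
    exact hle
  have h1 : (1 : Γ(M.XB B, M.V₀ B)) ∈ J := hJ ▸ trivial
  simpa [J] using h1

/-- The line bundle in Laurent series of a module with a frame near the section. -/
def latOf (hi : M.θ B ⁻¹ᵁ F.U i₀ = ⊤) : M.D.Lat B where
  val := M.latSub B (F.isFrame i₀) hi
  inv := M.latSub B (F.isFrame' i₀) hi
  val_inv := M.latSub_mul_latSub B hi
  inv_val := by rw [mul_comm]; exact M.latSub_mul_latSub B hi

end Dual

theorem exists_lat (hN : Scheme.Modules.IsInvertible N) (he : Shf.IsFrame N e)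
    (hU : M.θ B ⁻¹ᵁ U = ⊤) :
    ∃ W : M.D.Lat B, (W : Submodule (M.D.reg B) (LaurentSeries B)) = M.latSub B he hU := by
  obtain ⟨N', F, i₀, hi₀, hres⟩ := Shf.exists_dualFrames hN he
  have hi : M.θ B ⁻¹ᵁ F.U i₀ = ⊤ := by rw [hi₀]; exact hU
  refine ⟨M.latOf B hi, ?_⟩
  change M.latSub B (F.isFrame i₀) hi = _
  rw [← M.latSub_res B he hU hi₀.le hi]
  congr 1
  exact hres.symm

theorem ex_injective (hN : Scheme.Modules.IsInvertible N) (he : Shf.IsFrame N e)
    (hU : M.θ B ⁻¹ᵁ U = ⊤) : Function.Injective (M.ex B he hU) := by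
  suffices h : ∀ s, M.ex B he hU s = 0 → s = 0 by
    intro s s' hss
    have h1 := M.ex_add B he hU (s - s') s'
    rw [sub_add_cancel, hss, right_eq_add] at h1
    exact sub_eq_zero.mp (h _ h1)
  intro s hs
  obtain ⟨N', F, i₀, hi₀, hres⟩ := Shf.exists_dualFrames hN he
  have hi : M.θ B ⁻¹ᵁ F.U i₀ = ⊤ := by rw [hi₀]; exact hU
  have hs' : M.ex B (F.isFrame i₀) hi s = 0 := by
    rw [← M.ex_res B he hU hi₀.le hi] at hs
    rw [← hs]
    congr 1
    exact hres.symm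
  have haff : IsAffineOpen (M.V₀ B) := Shf.isAffineOpen_chart (M.q₀ B)
  have hloc : ∀ x ∈ M.V₀ B, ∃ (a : Γ(M.XB B, M.V₀ B)),
      x ∈ (M.XB B).basicOpen a ∧ ∃ i, (M.XB B).basicOpen a ≤ F.U i := fun x hx => by
    obtain ⟨i, hi'⟩ := F.covers x
    obtain ⟨a, haV, hxa⟩ := haff.exists_basicOpen_le (V := F.U i) ⟨x, hi'⟩ hx
    exact ⟨a, hxa, i, haV⟩
  choose a hxa i hai using hloc
  refine Shf.ext_sections N (fun x : M.V₀ B => (M.XB B).basicOpen (a x.1 x.2))
    (fun x => (M.XB B).basicOpen_le _) (fun x hx => ⟨⟨x, hx⟩, hxa x hx⟩) fun x => ?_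
  set a' := a x.1 x.2
  set i' := i x.1 x.2
  have hai' : (M.XB B).basicOpen a' ≤ F.U i' := hai x.1 x.2
  obtain ⟨n, t, ht⟩ := Shf.exists_extend
    (Shf.isInvertible_of_frames fun z => (F.covers z).elim fun i hi => ⟨_, hi, _, F.isFrame' i⟩)
    haff a' (Shf.resM N' hai' (F.e' i'))
  obtain ⟨P, hP⟩ := F.exists_pair s t
  have h0 := M.ex_mul B hi hP
  rw [hs', zero_mul] at h0
  have hP0 : P = 0 := by
    have := CurveData.embB_injective (D := M.D) (B := B) (h0.symm.trans (map_zero _).symm)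
    simpa using this
  have h := hP i' _ ((M.XB B).basicOpen_le a') hai'
  rw [hP0, map_zero, (F.isFrame' i').coeff_eq hai' ht.symm] at h
  have hu : IsUnit (Shf.resO ((M.XB B).basicOpen_le a') a') :=
    RingedSpace.isUnit_res_basicOpen _ a'
  have hc : (F.isFrame i').coeff hai' (Shf.resM N ((M.XB B).basicOpen_le a') s) = 0 :=
    (hu.pow n).mul_left_eq_zero.mp h.symm
  rw [← (F.isFrame i').coeff_spec hai' (Shf.resM N _ s), hc, zero_smul, map_zero]

section BaseChange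

variable {B} {B' : Type u} [CommRing B'] [Algebra k B'] (φ : B →ₐ[k] B')

/-- The morphism between curves over bases. -/
abbrev bc (_M : CurveModel c ε) : pullback c (specBase k B') ⟶ pullback c (specBase k B) :=
  baseChangeSnd c (specMap φ)

theorem q₀_bc : M.q₀ B' ≫ M.bc φ =
    Spec.map (CommRingCat.ofHom (Algebra.TensorProduct.map φ (AlgHom.id k M.D.A)).toRingHom) ≫
      M.q₀ B := by
  refine pullback.hom_ext ?_ ?_
  · simp only [bc, baseChangeSnd, q₀, Category.assoc, pullback.lift_fst, Category.comp_id,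
      chartOver_fst, ← Spec.map_comp_assoc]
    congr 2
    refine CommRingCat.hom_ext (RingHom.ext fun a => ?_)
    simp
  · simp only [bc, baseChangeSnd, q₀, Category.assoc, pullback.lift_snd, chartOver_snd,
      chartOver_snd_assoc, specMap, ← Spec.map_comp]
    congr 1

theorem θ'_bc : M.θ' B' ≫ M.bc φ =
    Spec.map (CommRingCat.ofHom (coeffMapₐ φ).toRingHom) ≫ M.θ' B := by
  simp only [θ', Category.assoc, M.q₀_bc φ, ← Spec.map_comp_assoc]
  congr 2
  refine CommRingCat.hom_ext (RingHom.ext fun x => ?_)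
  exact (M.D.coeffMapₐ_embB φ x).symm

theorem θ_bc : M.θ B' ≫ M.bc φ =
    Spec.map (CommRingCat.ofHom (PowerSeries.map (φ : B →+* B'))) ≫ M.θ B := by
  refine pullback.hom_ext ?_ ?_
  · simp only [θ, q₁, bc, baseChangeSnd, Category.assoc, pullback.lift_fst, Category.comp_id,
      chartOver_fst, ← Spec.map_comp_assoc]
    congr 2
    refine CommRingCat.hom_ext (RingHom.ext fun a => ?_)
    change M.emb₁B B' (Algebra.TensorProduct.includeRight a) =
      PowerSeries.map (φ : B →+* B') (M.emb₁B B (Algebra.TensorProduct.includeRight a))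
    rw [M.emb₁B_includeRight, M.emb₁B_includeRight]
    ext n
    simp
  · simp only [θ, q₁, bc, baseChangeSnd, Category.assoc, pullback.lift_snd, chartOver_snd,
      chartOver_snd_assoc, specMap, ← Spec.map_comp]
    congr 1
    refine CommRingCat.hom_ext (RingHom.ext fun b => ?_)
    change M.emb₁B B' ((φ b) ⊗ₜ 1) = PowerSeries.map (φ : B →+* B') (M.emb₁B B (b ⊗ₜ 1))
    simp [M.emb₁B_tmul]

theorem preimage_bc_V₀ : M.bc φ ⁻¹ᵁ M.V₀ B = M.V₀ B' := by
  refine Opens.ext (Set.ext fun x => ?_)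
  refine (mem_opensRange_chartOver B M.j₀ M.j₀_c (M.bc φ x)).trans
    (Iff.trans ?_ (mem_opensRange_chartOver B' M.j₀ M.j₀_c x).symm)
  rw [← Scheme.Hom.comp_apply]
  simp only [bc, baseChangeSnd, pullback.lift_fst, Category.comp_id]

theorem preimage_θ_bc {U : (M.XB B).Opens} (hU : M.θ B ⁻¹ᵁ U = ⊤) :
    M.θ B' ⁻¹ᵁ (M.bc φ ⁻¹ᵁ U) = ⊤ := by
  rw [← Scheme.Hom.comp_preimage, M.θ_bc φ, Scheme.Hom.comp_preimage, hU]
  rfl

/-- Pullback of a section over the punctured curve. -/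
def pb₀ (N : (M.XB B).Modules) (s : Γ(N, M.V₀ B)) :
    Γ((Scheme.Modules.pullback (M.bc φ)).obj N, M.V₀ B') :=
  Shf.resM _ (M.preimage_bc_V₀ φ).ge (Shf.pb (M.bc φ) N (M.V₀ B) s)

theorem ex_pb (he : Shf.IsFrame N e) (hU : M.θ B ⁻¹ᵁ U = ⊤) (s : Γ(N, M.V₀ B)) :
    M.ex B' (he.pb (M.bc φ)) (M.preimage_θ_bc φ hU) (M.pb₀ φ N s) =
      coeffMapₐ φ (M.ex B he hU s) := by
  have hW := Shf.preimage_inf_eq_top (M.preimage_θ'_V₀ B) (M.preimage_θ'_eq_top B hU)
  have hW' : M.θ' B' ⁻¹ᵁ (M.bc φ ⁻¹ᵁ (M.V₀ B ⊓ U)) = ⊤ := by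
    rw [← Scheme.Hom.comp_preimage, M.θ'_bc φ, Scheme.Hom.comp_preimage, hW]
    rfl
  rw [M.ex_eq B' (he.pb (M.bc φ)) (M.preimage_θ_bc φ hU) (M.pb₀ φ N s)
    (W := M.bc φ ⁻¹ᵁ (M.V₀ B ⊓ U)) (((M.bc φ).preimage_mono inf_le_left).trans (M.preimage_bc_V₀ φ).le)
    ((M.bc φ).preimage_mono inf_le_right) hW'
    (f := (M.bc φ).app _ (he.coeff inf_le_right (Shf.resM N inf_le_left s))) (by
      rw [Shf.resM_pb _ _ (inf_le_right : M.V₀ B ⊓ U ≤ U), ← Shf.pb_smul, he.coeff_spec, pb₀,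
        Shf.resM_resM, ← Shf.resM_pb])]
  rw [← Shf.evalAt_app (M.θ' B') (M.bc φ) (U := M.V₀ B ⊓ U) hW']
  rw [Shf.evalAt_congr (M.θ'_bc φ) _
    (by rw [← M.θ'_bc φ, Scheme.Hom.comp_preimage]; exact hW')]
  exact Shf.evalAt_comp (M.θ' B) _ hW _ _

theorem latSub_pb_le (he : Shf.IsFrame N e) (hU : M.θ B ⁻¹ᵁ U = ⊤) {W : M.D.Lat B}
    (hW : (W : Submodule (M.D.reg B) (LaurentSeries B)) = M.latSub B he hU) :
    (M.D.latMap φ W : Submodule (M.D.reg B') (LaurentSeries B')) ≤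
      M.latSub B' (he.pb (M.bc φ)) (M.preimage_θ_bc φ hU) := by
  refine Submodule.span_le.mpr ?_
  rintro _ ⟨x, hx, rfl⟩
  rw [SetLike.mem_coe, hW] at hx
  obtain ⟨s, rfl⟩ := hx
  exact ⟨M.pb₀ φ N s, M.ex_pb φ he hU s⟩

/-- Expansions commute with base change. -/
theorem latSub_pb (hN : Scheme.Modules.IsInvertible N) (he : Shf.IsFrame N e)
    (hU : M.θ B ⁻¹ᵁ U = ⊤) {W : M.D.Lat B}
    (hW : (W : Submodule (M.D.reg B) (LaurentSeries B)) = M.latSub B he hU) :
    (M.D.latMap φ W : Submodule (M.D.reg B') (LaurentSeries B')) =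
      M.latSub B' (he.pb (M.bc φ)) (M.preimage_θ_bc φ hU) := by
  obtain ⟨N', F, i₀, hi₀, hres⟩ := Shf.exists_dualFrames hN he
  have hi : M.θ B ⁻¹ᵁ F.U i₀ = ⊤ := by rw [hi₀]; exact hU
  have hWF : W = M.latOf B hi := by
    refine Units.ext (hW.trans ?_)
    change _ = M.latSub B (F.isFrame i₀) hi
    rw [← M.latSub_res B he hU hi₀.le hi]
    congr 1
  let F' := F.pullback (M.bc φ)
  have hi' : M.θ B' ⁻¹ᵁ F'.U i₀ = ⊤ := M.preimage_θ_bc φ hi
  have h1 : (M.D.latMap φ W : Submodule (M.D.reg B') (LaurentSeries B')) ≤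
      (M.latOf B' hi' : Submodule (M.D.reg B') (LaurentSeries B')) := by
    rw [hWF]
    exact M.latSub_pb_le φ (F.isFrame i₀) hi rfl
  have h2 : (↑(M.D.latMap φ W)⁻¹ : Submodule (M.D.reg B') (LaurentSeries B')) ≤
      (↑(M.latOf B' hi')⁻¹ : Submodule (M.D.reg B') (LaurentSeries B')) := by
    rw [hWF, ← map_inv]
    exact M.latSub_pb_le φ (F.isFrame' i₀) hi rfl
  have h3 : (M.D.latMap φ W : Submodule (M.D.reg B') (LaurentSeries B')) =
      (M.latOf B' hi' : Submodule (M.D.reg B') (LaurentSeries B')) := by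
    refine le_antisymm h1 ?_
    calc (M.latOf B' hi' : Submodule (M.D.reg B') (LaurentSeries B'))
        = (M.latOf B' hi' : Submodule (M.D.reg B') (LaurentSeries B')) *
          ((↑(M.D.latMap φ W)⁻¹ : Submodule (M.D.reg B') (LaurentSeries B')) *
            (M.D.latMap φ W : Submodule (M.D.reg B') (LaurentSeries B'))) := by
          rw [Units.inv_mul, mul_one]
      _ ≤ (M.latOf B' hi' : Submodule (M.D.reg B') (LaurentSeries B')) *
          ((↑(M.latOf B' hi')⁻¹ : Submodule (M.D.reg B') (LaurentSeries B')) *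
            (M.D.latMap φ W : Submodule (M.D.reg B') (LaurentSeries B'))) :=
          mul_le_mul_right (mul_le_mul_left h2 _) _
      _ = _ := by rw [← mul_assoc, Units.mul_inv, one_mul]
  rw [h3]
  change M.latSub B' (F'.isFrame i₀) hi' = _
  rw [← M.latSub_res B' (he.pb (M.bc φ)) (M.preimage_θ_bc φ hU) ((M.bc φ).preimage_mono hi₀.le) hi']
  congr 1
  change Shf.pb (M.bc φ) N _ (F.e i₀) = _
  rw [← hres, Shf.resM_pb]

end BaseChange

end Fermat.Agent.Jac.CurveModel
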