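/-
S25 U4: homomorphisms of invertible modules from their expansions.
-/
import Fermat.Agent.Jac.Dictionary.Expand

set_option autoImplicit false

noncomputable section

universe u

open CategoryTheory CategoryTheory.Limits AlgebraicGeometry TopologicalSpace NeronModelInfra
  AlgebraicGeometry.RelPicard TensorProduct

namespace Fermat.Agent.Jac.CurveModel

variable {k : Type u} [Field k] {C : Scheme.{u}} {c : C ⟶ Spec (CommRingCat.of k)}
  {ε : SchemeHomOver (𝟙 (Spec (CommRingCat.of k))) c}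
variable (M : CurveModel c ε) (B : Type u) [CommRing B] [Algebra k B]
variable {N N' : (M.XB B).Modules} {U U' : (M.XB B).Opens} {e : Γ(N, U)} {e' : Γ(N', U')}

theorem smul_cancel_of_isUnit {X : Scheme.{u}} {P : X.Modules} {V : X.Opens} {r : Γ(X, V)}
    (hr : IsUnit r) {x y : Γ(P, V)} (h : r • x = r • y) : x = y := by
  obtain ⟨v, rfl⟩ := hr
  have := congrArg ((↑v⁻¹ : Γ(X, V)) • ·) h
  simpa only [← mul_smul, Units.inv_mul, one_smul] using this

theorem eq_zero_of_mul_lat {W : M.D.Lat B} {z : LaurentSeries B}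
    (h : ∀ x ∈ (W : Submodule (M.D.reg B) (LaurentSeries B)), z * x = 0) : z = 0 := by
  have h1 : (1 : LaurentSeries B) ∈ (W : Submodule (M.D.reg B) (LaurentSeries B)) *
      (↑W⁻¹ : Submodule (M.D.reg B) (LaurentSeries B)) := by
    rw [Units.mul_inv]
    exact Submodule.one_le.mp le_rfl
  have : ∀ y ∈ (W : Submodule (M.D.reg B) (LaurentSeries B)) *
      (↑W⁻¹ : Submodule (M.D.reg B) (LaurentSeries B)), z * y = 0 := fun y hy =>
    Submodule.mul_induction_on hy (fun x hx w _ => by rw [← mul_assoc, h x hx, zero_mul])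
      (fun a b ha hb => by rw [mul_add, ha, hb, add_zero])
  simpa using this 1 h1

/-- A morphism is determined by the sections over the punctured curve. -/
theorem hom_ext_sections (hN : Scheme.Modules.IsInvertible N) (hN' : Scheme.Modules.IsInvertible N')
    {y : M.Coord₁ B} (hy : IsUnit (M.valσ B y)) (he : Shf.IsFrame N e) (he' : Shf.IsFrame N' e')
    (hyU : M.nbhd B y ≤ U) (hyU' : M.nbhd B y ≤ U') {φ ψ : N ⟶ N'}
    (h : ∀ s, φ.app (M.V₀ B) s = ψ.app (M.V₀ B) s) : φ = ψ := by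
  classical
  have haff : IsAffineOpen (M.V₀ B) := Shf.isAffineOpen_chart (M.q₀ B)
  obtain ⟨F, hF, hfr⟩ := Shf.exists_basic_frames_cover hN haff
  choose eF heF using fun a : F => hfr a a.2
  let Uc : Option F → (M.XB B).Opens := fun i =>
    i.elim (M.nbhd B y) fun a => (M.XB B).basicOpen (a : Γ(M.XB B, M.V₀ B))
  let E : ∀ i, Γ(N, Uc i) := fun i => match i with
    | none => Shf.resM N hyU e
    | some a => eF a
  have hE : ∀ i, Shf.IsFrame N (E i) := fun i => match i with
    | none => he.res hyU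
    | some a => heF a
  have hcov : ∀ x, ∃ i, x ∈ Uc i := fun x => (M.covers_nbhd B hy x).elim
    (fun hx => (Shf.mem_of_span_eq_top haff hF hx).elim fun a ha => ⟨some a, ha⟩) fun hx => ⟨none, hx⟩
  have hsome : ∀ a : F, φ.app _ (eF a) = ψ.app _ (eF a) := fun a => by
    obtain ⟨n, s, hs⟩ := Shf.exists_extend hN haff (a : Γ(M.XB B, M.V₀ B)) (eF a)
    have h1 : φ.app _ (Shf.resM N ((M.XB B).basicOpen_le (a : Γ(M.XB B, M.V₀ B))) s) =
        ψ.app _ (Shf.resM N ((M.XB B).basicOpen_le (a : Γ(M.XB B, M.V₀ B))) s) := by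
      rw [Shf.app_resM, Shf.app_resM, h]
    rw [hs, Scheme.Modules.Hom.app_smul, Scheme.Modules.Hom.app_smul] at h1
    exact smul_cancel_of_isUnit ((RingedSpace.isUnit_res_basicOpen _ (a : Γ(M.XB B, M.V₀ B))).pow n) h1
  refine Shf.hom_ext_frames hcov hE fun i => ?_
  match i with
  | some a => exact hsome a
  | none =>
    change φ.app (M.nbhd B y) (Shf.resM N hyU e) = ψ.app (M.nbhd B y) (Shf.resM N hyU e)
    set e₀ : Γ(N, M.nbhd B y) := Shf.resM N hyU e with he₀
    clear_value e₀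
    set W := M.nbhd B y ⊓ M.V₀ B
    have hW : φ.app W (Shf.resM N inf_le_left e₀) = ψ.app W (Shf.resM N inf_le_left e₀) := by
      refine Shf.ext_sections N' (fun a : F => W ⊓ (M.XB B).basicOpen (a : Γ(M.XB B, M.V₀ B)))
        (fun _ => inf_le_left) (fun x hx => (Shf.mem_of_span_eq_top haff hF hx.2).imp
          fun a ha => ⟨hx, ha⟩) fun a => ?_
      rw [← Shf.app_resM, ← Shf.app_resM, ← (heF a).coeff_spec inf_le_right
        (Shf.resM N (inf_le_left : W ⊓ (M.XB B).basicOpen _ ≤ W) (Shf.resM N inf_le_left e₀)),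
        Scheme.Modules.Hom.app_smul, Scheme.Modules.Hom.app_smul, Shf.app_resM, Shf.app_resM, hsome]
    rw [Shf.app_resM, Shf.app_resM] at hW
    set f := (he'.res hyU').coeff le_rfl (φ.app (M.nbhd B y) e₀)
    set g := (he'.res hyU').coeff le_rfl (ψ.app (M.nbhd B y) e₀)
    have hfg : Shf.resO (inf_le_left : W ≤ M.nbhd B y) f = Shf.resO inf_le_left g := by
      rw [(he'.res hyU').resO_coeff, (he'.res hyU').resO_coeff, hW]
    have htop := Shf.preimage_inf_eq_top
      (M.preimage_θ'_eq_top B (M.preimage_θ_nbhd B hy)) (M.preimage_θ'_V₀ B)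
    obtain ⟨g₀, -, huniq⟩ := M.existsUnique_extend B hy (Shf.resO inf_le_left f)
      (φ := Shf.evalAt (M.θ B) _ (M.preimage_θ_nbhd B hy) f)
      (by rw [Shf.evalAt_res, M.evalAt_θ' B (M.preimage_θ_nbhd B hy)])
    have heq : f = g := (huniq f rfl).trans (huniq g hfg.symm).symm
    rw [← (he'.res hyU').coeff_spec le_rfl (φ.app (M.nbhd B y) e₀),
      ← (he'.res hyU').coeff_spec le_rfl (ψ.app (M.nbhd B y) e₀)]
    exact congrArg (· • _) heq

/-- Multiplication by a power series between the expansions gives a morphism. -/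
theorem exists_hom (hN : Scheme.Modules.IsInvertible N) (hN' : Scheme.Modules.IsInvertible N')
    {y : M.Coord₁ B} (hy : IsUnit (M.valσ B y)) (he : Shf.IsFrame N e) (he' : Shf.IsFrame N' e')
    (hU : M.θ B ⁻¹ᵁ U = ⊤) (hU' : M.θ B ⁻¹ᵁ U' = ⊤)
    (hyU : M.nbhd B y ≤ U) (hyU' : M.nbhd B y ≤ U') (u : PowerSeries B)
    (hu : ∀ x ∈ M.latSub B he hU, HahnSeries.ofPowerSeries ℤ B u * x ∈ M.latSub B he' hU') :
    ∃ φ : N ⟶ N', ∀ s,
      M.ex B he' hU' (φ.app _ s) = HahnSeries.ofPowerSeries ℤ B u * M.ex B he hU s := by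
  classical
  have haff : IsAffineOpen (M.V₀ B) := Shf.isAffineOpen_chart (M.q₀ B)
  choose T hT using fun s => hu _ ((M.mem_latSub B).mpr ⟨s, rfl⟩)
  have hinj := M.ex_injective B hN' he' hU'
  have hTsmul : ∀ r s, T (r • s) = r • T s := fun r s => hinj (by
    rw [hT, M.ex_smul, M.ex_smul, hT]; ring)
  have hTsub : ∀ s s', T (s - s') = T s - T s' := fun s s' => by
    have h1 : T (s - s') + T s' = T s := hinj (by
      rw [M.ex_add, hT, hT, hT, ← mul_add, ← M.ex_add, sub_add_cancel])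
    exact eq_sub_of_add_eq h1
  obtain ⟨F, hF, hfr⟩ := Shf.exists_basic_frames_cover hN haff
  choose eF heF using fun a : F => hfr a a.2
  choose m sF hsF using fun a : F => Shf.exists_extend hN haff (a : Γ(M.XB B, M.V₀ B)) (eF a)
  let D : F → (M.XB B).Opens := fun a => (M.XB B).basicOpen (a : Γ(M.XB B, M.V₀ B))
  have hD : ∀ a, D a ≤ M.V₀ B := fun a => (M.XB B).basicOpen_le _
  have hunit : ∀ a : F, IsUnit (Shf.resO (hD a) (a : Γ(M.XB B, M.V₀ B))) := fun a =>
    RingedSpace.isUnit_res_basicOpen _ _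
  let v : ∀ a : F, Γ(N', D a) := fun a =>
    (↑((hunit a).unit⁻¹ ^ m a) : Γ(M.XB B, D a)) • Shf.resM N' (hD a) (T (sF a))
  have hv : ∀ a, Shf.resO (hD a) (a : Γ(M.XB B, M.V₀ B)) ^ m a • v a =
      Shf.resM N' (hD a) (T (sF a)) := fun a => by
    simp only [v, ← mul_smul, Units.val_pow_eq_pow_val, ← mul_pow, IsUnit.mul_val_inv, one_pow,
      one_smul]
  clear_value v
  have K : ∀ (a : F) s, Shf.resM N' (hD a) (T s) =
      (heF a).coeff le_rfl (Shf.resM N (hD a) s) • v a := by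
    intro a s
    set f := (heF a).coeff le_rfl (Shf.resM N (hD a) s)
    have hfs : f • eF a = Shf.resM N (hD a) s := by simpa using (heF a).coeff_spec le_rfl _
    obtain ⟨n, r, hr⟩ : ∃ (n : ℕ) (r : Γ(M.XB B, M.V₀ B)),
        f * Shf.resO (hD a) (a : Γ(M.XB B, M.V₀ B)) ^ n = Shf.resO (hD a) r := by
      letI := (Shf.resO (hD a)).toAlgebra
      haveI : IsLocalization.Away (a : Γ(M.XB B, M.V₀ B)) Γ(M.XB B, D a) :=
        haff.isLocalization_basicOpen _
      exact IsLocalization.Away.surj (a : Γ(M.XB B, M.V₀ B)) f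
    obtain ⟨L, hL⟩ := Shf.exists_pow_smul_eq_zero hN haff (a : Γ(M.XB B, M.V₀ B))
      ((a : Γ(M.XB B, M.V₀ B)) ^ (n + m a) • s - r • sF a) (by
        rw [map_sub, Shf.resM_smul, Shf.resM_smul, hsF, ← hfs, map_pow, ← hr, ← mul_smul, ← mul_smul,
          sub_eq_zero]
        congr 1
        ring)
    have h1 := congrArg (fun z => Shf.resM N' (hD a) (T z)) hL
    have hT0 : T 0 = 0 := by simpa using hTsmul 0 0
    simp only [hTsmul, hTsub, hT0, map_zero, Shf.resM_smul, map_sub, map_pow] at h1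
    have h1' := smul_cancel_of_isUnit ((hunit a).pow L) (h1.trans (smul_zero _).symm)
    rw [sub_eq_zero, ← hv, ← hr, ← mul_smul] at h1'
    have h2 : Shf.resO (hD a) (a : Γ(M.XB B, M.V₀ B)) ^ (n + m a) • Shf.resM N' (hD a) (T s) =
        Shf.resO (hD a) (a : Γ(M.XB B, M.V₀ B)) ^ (n + m a) • (f • v a) := by
      rw [h1', ← mul_smul]
      congr 1
      ring
    exact smul_cancel_of_isUnit ((hunit a).pow (n + m a)) h2
  have K' : ∀ (a : F) s (W : (M.XB B).Opens) (hW : W ≤ D a) (r : Γ(M.XB B, W)),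
      r • Shf.resM N hW (eF a) = Shf.resM N (hW.trans (hD a)) s →
        Shf.resM N' (hW.trans (hD a)) (T s) = r • Shf.resM N' hW (v a) := by
    intro a s W hW r hr
    have h := congrArg (Shf.resM N' hW) (K a s)
    rw [Shf.resM_resM, Shf.resM_smul, (heF a).resO_coeff, Shf.resM_resM, (heF a).coeff_eq _ hr] at h
    exact h
  have compat : ∀ (a b : F) (W : (M.XB B).Opens) (ha : W ≤ D a) (hb : W ≤ D b) (r : Γ(M.XB B, W)),
      Shf.resM N ha (eF a) = r • Shf.resM N hb (eF b) →
        Shf.resM N' ha (v a) = r • Shf.resM N' hb (v b) := by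
    intro a b W ha hb r hr
    have hs : Shf.resM N (ha.trans (hD a)) (sF a) =
        Shf.resO (ha.trans (hD a)) (a : Γ(M.XB B, M.V₀ B)) ^ m a • Shf.resM N ha (eF a) := by
      have := congrArg (Shf.resM N ha) (hsF a)
      simpa only [Shf.resM_resM, Shf.resM_smul, map_pow, Shf.resO_resO] using this
    have h1 := K' a (sF a) W ha _ hs.symm
    have h2 := K' b (sF a) W hb (Shf.resO (ha.trans (hD a)) (a : Γ(M.XB B, M.V₀ B)) ^ m a * r)
      (by rw [mul_smul, ← hr, ← hs])
    have h3 := h1.symm.trans h2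
    rw [mul_smul] at h3
    have hu' : IsUnit (Shf.resO (ha.trans (hD a)) (a : Γ(M.XB B, M.V₀ B)) ^ m a) := by
      rw [← Shf.resO_resO (hD a) ha]
      exact ((hunit a).map _).pow _
    exact smul_cancel_of_isUnit hu' h3
  set W := M.nbhd B y ⊓ M.V₀ B
  have hWU : W ≤ U := inf_le_left.trans hyU
  have hWtop : M.θ' B ⁻¹ᵁ W = ⊤ := Shf.preimage_inf_eq_top
    (M.preimage_θ'_eq_top B (M.preimage_θ_nbhd B hy)) (M.preimage_θ'_V₀ B)
  have hcW : ∀ x ∈ W, ∃ a : F, x ∈ W ⊓ D a := fun x hx =>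
    (Shf.mem_of_span_eq_top haff hF hx.2).imp fun a ha => ⟨hx, ha⟩
  let rinf : ∀ a : F, Γ(M.XB B, W ⊓ D a) := fun a =>
    (heF a).coeff inf_le_right (Shf.resM N (inf_le_left.trans hWU) e)
  have hrinf : ∀ (a : F) (Z : (M.XB B).Opens) (hZ : Z ≤ W ⊓ D a),
      Shf.resO hZ (rinf a) • Shf.resM N (hZ.trans inf_le_right) (eF a) =
        Shf.resM N (hZ.trans (inf_le_left.trans hWU)) e := fun a Z hZ => by
    have := congrArg (Shf.resM N hZ) ((heF a).coeff_spec inf_le_right
      (Shf.resM N (inf_le_left.trans hWU : W ⊓ D a ≤ U) e))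
    simpa only [Shf.resM_smul, Shf.resM_resM] using this
  obtain ⟨tW, htW⟩ := Shf.exists_glue_sections N' (fun a : F => W ⊓ D a) (fun _ => inf_le_left) hcW
    (fun a => rinf a • Shf.resM N' inf_le_right (v a)) (fun a b => by
      simp only [Shf.resM_smul, Shf.resM_resM]
      set Z := (W ⊓ D a) ⊓ (W ⊓ D b)
      have ha : Z ≤ D a := inf_le_left.trans inf_le_right
      have hb : Z ≤ D b := inf_le_right.trans inf_le_right
      set q := (heF b).coeff hb (Shf.resM N ha (eF a))
      have hq : Shf.resM N ha (eF a) = q • Shf.resM N hb (eF b) := ((heF b).coeff_spec _ _).symm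
      rw [compat a b Z ha hb q hq, ← mul_smul]
      congr 1
      refine (heF b).smul_cancel hb ?_
      rw [mul_smul, ← hq, hrinf, hrinf])
  set a₀ := he'.coeff (inf_le_left.trans hyU' : W ≤ U') tW
  have hTW : ∀ s, Shf.resM N' inf_le_right (T s) =
      he.coeff hWU (Shf.resM N inf_le_right s) • tW := by
    intro s
    refine Shf.ext_sections N' (fun a : F => W ⊓ D a) (fun _ => inf_le_left) hcW fun a => ?_
    rw [Shf.resM_smul, htW, ← mul_smul, he.resO_coeff, Shf.resM_resM, Shf.resM_resM]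
    exact K' a s (W ⊓ D a) inf_le_right _ (by
      rw [mul_smul]
      have h := hrinf a (W ⊓ D a) le_rfl
      rw [Shf.resO_self] at h
      rw [h, he.coeff_spec])
  have ha₀ : Shf.evalAt (M.θ' B) W hWtop a₀ = HahnSeries.ofPowerSeries ℤ B u := by
    obtain ⟨Wl, hWl⟩ := M.exists_lat B hN he hU
    refine sub_eq_zero.mp (M.eq_zero_of_mul_lat B (W := Wl) fun x hx => ?_)
    rw [hWl] at hx
    obtain ⟨s, rfl⟩ := hx
    have h1 := M.ex_eq B he' hU' (T s) (W := W) inf_le_right (inf_le_left.trans hyU') hWtop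
      (f := he.coeff hWU (Shf.resM N inf_le_right s) * a₀)
      (by rw [mul_smul, he'.coeff_spec, hTW])
    have h2 := M.ex_eq B he hU s (W := W) inf_le_right hWU hWtop
      (f := he.coeff hWU (Shf.resM N inf_le_right s)) (he.coeff_spec _ _)
    rw [hT, map_mul, ← h2] at h1
    rw [sub_mul, h1]
    ring
  obtain ⟨ainf, hainf, -⟩ := M.existsUnique_extend B hy a₀ ha₀
  let vinf : Γ(N', M.nbhd B y) := ainf • Shf.resM N' hyU' e'
  have hvinf : ∀ (a : F) (Z : (M.XB B).Opens) (hZ : Z ≤ W ⊓ D a),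
      Shf.resM N' (hZ.trans (inf_le_left.trans inf_le_left)) vinf =
        Shf.resO hZ (rinf a) • Shf.resM N' (hZ.trans inf_le_right) (v a) := fun a Z hZ => by
    have h1 := congrArg (Shf.resM N' hZ) (htW a)
    simp only [Shf.resM_smul, Shf.resM_resM] at h1
    rw [← h1, Shf.resM_smul, Shf.resM_resM, ← Shf.resO_resO (inf_le_left : W ≤ M.nbhd B y)
      (hZ.trans inf_le_left), hainf, he'.resO_coeff, he'.coeff_spec]
  let Uc : Option F → (M.XB B).Opens := fun i => i.elim (M.nbhd B y) D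
  let E : ∀ i, Γ(N, Uc i) := fun i => match i with
    | none => Shf.resM N hyU e
    | some a => eF a
  let E' : ∀ i, Γ(N', Uc i) := fun i => match i with
    | none => vinf
    | some a => v a
  have hE : ∀ i, Shf.IsFrame N (E i) := fun i => match i with
    | none => he.res hyU
    | some a => heF a
  have hcov : ∀ x, ∃ i, x ∈ Uc i := fun x => (M.covers_nbhd B hy x).elim
    (fun hx => (Shf.mem_of_span_eq_top haff hF hx).elim fun a ha => ⟨some a, ha⟩) fun hx => ⟨none, hx⟩
  have hna : ∀ (a : F) (r : Γ(M.XB B, M.nbhd B y ⊓ D a)),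
      Shf.resM N inf_le_left (Shf.resM N hyU e) = r • Shf.resM N inf_le_right (eF a) →
        Shf.resM N' inf_le_left vinf = r • Shf.resM N' inf_le_right (v a) := fun a r hr => by
    have hZ : M.nbhd B y ⊓ D a ≤ W ⊓ D a :=
      le_inf (le_inf inf_le_left (inf_le_right.trans (hD a))) inf_le_right
    have h1 := hrinf a _ hZ
    rw [show r = Shf.resO hZ (rinf a) from (heF a).smul_cancel inf_le_right
      (hr.symm.trans ((Shf.resM_resM N hyU inf_le_left e).trans h1.symm))]
    exact hvinf a _ hZ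
  have han : ∀ (a : F) (r : Γ(M.XB B, D a ⊓ M.nbhd B y)),
      Shf.resM N inf_le_left (eF a) = r • Shf.resM N inf_le_right (Shf.resM N hyU e) →
        Shf.resM N' inf_le_left (v a) = r • Shf.resM N' inf_le_right vinf := fun a r hr => by
    have hZ : D a ⊓ M.nbhd B y ≤ W ⊓ D a :=
      le_inf (le_inf inf_le_right (inf_le_left.trans (hD a))) inf_le_left
    have h1 := hrinf a _ hZ
    have h2 : (1 : Γ(M.XB B, D a ⊓ M.nbhd B y)) = r * Shf.resO hZ (rinf a) :=
      (heF a).smul_cancel inf_le_left (by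
        rw [one_smul, mul_smul, h1]
        exact hr.trans (congrArg (r • ·) (Shf.resM_resM N hyU inf_le_right e)))
    rw [hvinf a _ hZ, ← mul_smul, ← h2, one_smul]
  have hrel : ∀ (i j : Option F) (r : Γ(M.XB B, Uc i ⊓ Uc j)),
      Shf.resM N inf_le_left (E i) = r • Shf.resM N inf_le_right (E j) →
        Shf.resM N' inf_le_left (E' i) = r • Shf.resM N' inf_le_right (E' j) := by
    intro i j r hr
    match i, j with
    | none, none =>
      have h1 : r = (1 : Γ(M.XB B, Uc none ⊓ Uc none)) := (hE none).smul_cancel inf_le_right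
        (hr.symm.trans (one_smul Γ(M.XB B, Uc none ⊓ Uc none) _).symm)
      rw [h1]
      exact (one_smul _ _).symm
    | some a, some b => exact compat a b _ _ _ r hr
    | none, some a => exact hna a r hr
    | some a, none => exact han a r hr
  refine ⟨Shf.homOfFrames hcov hE E' hrel, fun s => ?_⟩
  rw [← hT]
  congr 1
  refine Shf.ext_sections N' D hD (fun x hx => Shf.mem_of_span_eq_top haff hF hx) fun a => ?_
  rw [K a s, ← Shf.app_resM]
  conv_lhs => rw [← (heF a).coeff_spec le_rfl (Shf.resM N (hD a) s)]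
  rw [Scheme.Modules.Hom.app_smul, Shf.resM_self]
  exact congrArg (_ • ·) (Shf.homOfFrames_app hcov hE E' hrel (some a))

/-- Equal classes give isomorphic modules. -/
theorem nonempty_iso_of_latSub (hN : Scheme.Modules.IsInvertible N)
    (hN' : Scheme.Modules.IsInvertible N') (he : Shf.IsFrame N e) (he' : Shf.IsFrame N' e')
    (hU : M.θ B ⁻¹ᵁ U = ⊤) (hU' : M.θ B ⁻¹ᵁ U' = ⊤) {W W' : M.D.Lat B}
    (hW : (W : Submodule (M.D.reg B) (LaurentSeries B)) = M.latSub B he hU)
    (hW' : (W' : Submodule (M.D.reg B) (LaurentSeries B)) = M.latSub B he' hU')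
    (h : CurveData.SameClass W W') : Nonempty (N ≅ N') := by
  obtain ⟨u, hu⟩ := h
  have key : ∀ (V V' : M.D.Lat B) (u : (PowerSeries B)ˣ), V' = M.D.retrivialise B u * V →
      ∀ x ∈ (V : Submodule (M.D.reg B) (LaurentSeries B)),
        HahnSeries.ofPowerSeries ℤ B u * x ∈ (V' : Submodule (M.D.reg B) (LaurentSeries B)) := by
    rintro V V' u rfl x hx
    exact Submodule.mul_mem_mul (Submodule.mem_span_singleton_self _) hx
  obtain ⟨y, hy, hle⟩ := M.exists_nbhd_le' B (U := U ⊓ U') (by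
    rw [Scheme.Hom.preimage_inf, hU, hU', inf_top_eq])
  obtain ⟨φ, hφ⟩ := M.exists_hom B hN hN' hy he he' hU hU' (hle.trans inf_le_left)
    (hle.trans inf_le_right) u (fun x hx => hW' ▸ key W W' u hu x (hW.symm ▸ hx))
  obtain ⟨ψ, hψ⟩ := M.exists_hom B hN' hN hy he' he hU' hU (hle.trans inf_le_right)
    (hle.trans inf_le_left) ↑u⁻¹ (fun x hx => hW ▸ key W' W u⁻¹
      (by rw [map_inv, hu, inv_mul_cancel_left]) x (hW'.symm ▸ hx))
  refine ⟨⟨φ, ψ, ?_, ?_⟩⟩
  · refine M.hom_ext_sections B hN hN hy he he (hle.trans inf_le_left) (hle.trans inf_le_left)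
      fun s => M.ex_injective B hN he hU ?_
    rw [Scheme.Modules.Hom.comp_app, ConcreteCategory.comp_apply, hψ, hφ, ← mul_assoc, ← map_mul,
      Units.inv_mul, map_one, one_mul]
    rfl
  · refine M.hom_ext_sections B hN' hN' hy he' he' (hle.trans inf_le_right) (hle.trans inf_le_right)
      fun s => M.ex_injective B hN' he' hU' ?_
    rw [Scheme.Modules.Hom.comp_app, ConcreteCategory.comp_apply, hφ, hψ, ← mul_assoc, ← map_mul,
      Units.mul_inv, map_one, one_mul]
    rfl

/-- Isomorphic modules have the same class. -/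
theorem sameClass_of_iso (φ : N ≅ N') (he : Shf.IsFrame N e) (he' : Shf.IsFrame N' e')
    (hU : M.θ B ⁻¹ᵁ U = ⊤) (hU' : M.θ B ⁻¹ᵁ U' = ⊤) {W W' : M.D.Lat B}
    (hW : (W : Submodule (M.D.reg B) (LaurentSeries B)) = M.latSub B he hU)
    (hW' : (W' : Submodule (M.D.reg B) (LaurentSeries B)) = M.latSub B he' hU') :
    CurveData.SameClass W W' := by
  have hV : M.θ B ⁻¹ᵁ (U ⊓ U') = ⊤ := by rw [Scheme.Hom.preimage_inf, hU, hU', inf_top_eq]
  have h₁ := (he.map φ).res (inf_le_left : U ⊓ U' ≤ U)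
  have h₂ := he'.res (inf_le_right : U ⊓ U' ≤ U')
  set a := h₂.coeff le_rfl (Shf.resM N' inf_le_left (φ.hom.app U e))
  have ha : Shf.resM N' inf_le_left (φ.hom.app U e) = a • Shf.resM N' inf_le_right e' :=
    ((h₂.coeff_spec le_rfl _).trans rfl).symm.trans (congrArg (_ • ·) (Shf.resM_self N' _ _))
  set b := h₁.coeff le_rfl (Shf.resM N' inf_le_right e')
  have hb : Shf.resM N' inf_le_right e' = b • Shf.resM N' inf_le_left (φ.hom.app U e) :=
    ((h₁.coeff_spec le_rfl _).trans rfl).symm.trans (congrArg (_ • ·) (Shf.resM_self N' _ _))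
  have hab : b * a = 1 := h₂.smul_cancel le_rfl (by
    rw [Shf.resM_self, mul_smul, ← ha, ← hb, one_smul])
  let v : (PowerSeries B)ˣ := Units.mkOfMulEqOne _ _ (show Shf.evalAt (M.θ B) _ hV a *
    Shf.evalAt (M.θ B) _ hV b = 1 by rw [← map_mul, mul_comm, hab, map_one])
  refine ⟨v, Units.ext ?_⟩
  rw [Units.val_mul, hW, hW', ← M.latSub_res B he' hU' inf_le_right hV,
    ← M.latSub_res B he hU inf_le_left hV]
  refine SetLike.ext fun x => ?_
  change x ∈ M.latSub B h₂ hV ↔ x ∈ Submodule.span (M.D.reg B)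
    {(HahnSeries.ofPowerSeries ℤ B (v : PowerSeries B))} * M.latSub B (he.res inf_le_left) hV
  rw [Submodule.mem_span_singleton_mul]
  have key : ∀ s, M.ex B h₂ hV (φ.hom.app _ s) =
      HahnSeries.ofPowerSeries ℤ B (v : PowerSeries B) * M.ex B (he.res inf_le_left) hV s := fun s => by
    rw [M.ex_frame_smul B h₂ h₁ hV ha, ← M.ex_map B (he.res inf_le_left) hV φ s]
    congr 2
    exact (Shf.app_resM φ.hom inf_le_left e).symm
  constructor
  · rintro ⟨s, rfl⟩
    exact ⟨_, ⟨φ.inv.app _ s, rfl⟩, by rw [← key, Shf.app_inv_hom]⟩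
  · rintro ⟨z, ⟨s, rfl⟩, rfl⟩
    exact ⟨φ.hom.app _ s, key s⟩

end Fermat.Agent.Jac.CurveModel
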