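/-
S25 U4: the line bundle of an invertible submodule of Laurent series.
-/
import Fermat.Agent.Jac.Dictionary.Iso

set_option autoImplicit false

noncomputable section

universe u

open CategoryTheory CategoryTheory.Limits AlgebraicGeometry TopologicalSpace NeronModelInfra
  AlgebraicGeometry.RelPicard TensorProduct

namespace Fermat.Agent.Jac

theorem Shf.nonempty_iso_unit {X : Scheme.{u}} {N : X.Modules} {U : X.Opens} (hU : U = ⊤)
    {e : Γ(N, U)} (he : Shf.IsFrame N e) : Nonempty (N ≅ SheafOfModules.unit X.ringCatSheaf) := by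
  obtain ⟨φ, -⟩ := Shf.nonempty_iso_of_frames (N := (SheafOfModules.unit X.ringCatSheaf : X.Modules))
    (U := fun _ : Unit => U) (fun _ => ⟨(), by rw [hU]; trivial⟩) (fun _ => he)
    (fun _ => Shf.isFrame_one U) (fun i j r hr => by
      have h1 : (1 : Γ(X, U ⊓ U)) = r := (he.res inf_le_right).smul_cancel le_rfl (by simpa using hr)
      subst h1
      change _ = (1 : Γ(X, _)) * _
      rw [one_mul])
  exact ⟨φ⟩

theorem Shf.isUnit_resO_basicOpen {X : Scheme.{u}} {U Z : X.Opens} (f : Γ(X, U))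
    (h : Z ≤ X.basicOpen f) (h' : Z ≤ U) : IsUnit (Shf.resO h' f) := by
  have h1 : IsUnit (Shf.resO (X.basicOpen_le f) f) :=
    RingedSpace.isUnit_res_basicOpen X.toRingedSpace f
  have h2 := h1.map (Shf.resO h)
  rwa [Shf.resO_resO] at h2

namespace CurveModel

variable {k : Type u} [Field k] {C : Scheme.{u}} {c : C ⟶ Spec (CommRingCat.of k)}
  {ε : SchemeHomOver (𝟙 (Spec (CommRingCat.of k))) c}
variable (M : CurveModel c ε) {B : Type u} [CommRing B] [Algebra k B]

section Pair

variable (W : M.D.Lat B)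

/-- A pair of an element of `W` and one of its inverse. -/
structure LatPair where
  w : LaurentSeries B
  v : LaurentSeries B
  hw : w ∈ (W : Submodule (M.D.reg B) (LaurentSeries B))
  hv : v ∈ (↑W⁻¹ : Submodule (M.D.reg B) (LaurentSeries B))

variable {M W}

theorem exists_pairFun (p q : LatPair M W) :
    ∃ r : Γ(M.XB B, M.V₀ B), M.D.embB B ((M.coord₀ B).symm r) = p.w * q.v := by
  have h : p.w * q.v ∈ (1 : Submodule (M.D.reg B) (LaurentSeries B)) := by
    rw [← Units.mul_inv W]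
    exact Submodule.mul_mem_mul p.hw q.hv
  obtain ⟨⟨_, r, rfl⟩, hr⟩ := Submodule.mem_one.mp h
  exact ⟨M.coord₀ B r, by rw [RingEquiv.symm_apply_apply]; exact hr⟩

/-- The product of two elements, as a function on the punctured curve. -/
def pairFun (p q : LatPair M W) : Γ(M.XB B, M.V₀ B) := (exists_pairFun p q).choose

theorem embB_pairFun (p q : LatPair M W) :
    M.D.embB B ((M.coord₀ B).symm (pairFun p q)) = p.w * q.v := (exists_pairFun p q).choose_spec

theorem pairFun_mul (p q r s : LatPair M W) :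
    pairFun p q * pairFun r s = pairFun p s * pairFun r q := by
  apply (M.coord₀ B).symm.injective
  apply CurveData.embB_injective (D := M.D) (B := B)
  simp only [map_mul, embB_pairFun]
  ring

theorem evalAt_pairFun {Z : (M.XB B).Opens} (h₀ : Z ≤ M.V₀ B) (hZ : M.θ' B ⁻¹ᵁ Z = ⊤)
    (p q : LatPair M W) :
    Shf.evalAt (M.θ' B) Z hZ (Shf.resO h₀ (pairFun p q)) = p.w * q.v := by
  refine (Shf.evalAt_res _ _ _ _).trans ?_
  conv_lhs => rw [← (M.coord₀ B).apply_symm_apply (pairFun p q), M.evalAt_coord₀, embB_pairFun]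

theorem evalAt_hB {Z : (M.XB B).Opens} (h₁ : Z ≤ M.V₁ B) (hZ : M.θ' B ⁻¹ᵁ Z = ⊤) :
    Shf.evalAt (M.θ' B) Z hZ (Shf.resO h₁ (M.coord₁ B (M.hB B))) =
      HahnSeries.ofPowerSeries ℤ B (M.emb₁B B (M.hB B)) := by
  refine (Shf.evalAt_res _ _ _ _).trans ?_
  rw [M.evalAt_θ' B (M.preimage_θ_V₁ B), M.evalAt_coord₁]

end Pair

/-- An element with prescribed leading coefficient at a large pole order. -/
theorem exists_monic_pole {W : M.D.Lat B} {n : ℕ}
    (hn : Function.Surjective ((CurveData.polar B n).comp W.toBase.subtype)) :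
    ∃ w ∈ (W : Submodule (M.D.reg B) (LaurentSeries B)), ∃ u : (PowerSeries B)ˣ,
      w = HahnSeries.single (-(n : ℤ)) 1 * HahnSeries.ofPowerSeries ℤ B (u : PowerSeries B) := by
  obtain ⟨⟨w, hw⟩, hwe⟩ := hn (Finsupp.single ⟨n, le_rfl⟩ 1)
  have hc : ∀ (j : ℕ) (hj : n ≤ j), w.coeff (-(j : ℤ)) = if j = n then 1 else 0 := fun j hj => by
    have h := congrArg (fun f => f ⟨j, hj⟩) hwe
    simp only [LinearMap.comp_apply, Submodule.subtype_apply, CurveData.polar_apply] at h
    rw [h, Finsupp.single_apply]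
    by_cases hjn : j = n
    · subst hjn; simp
    · rw [if_neg hjn, if_neg fun h' => hjn (congrArg Subtype.val h').symm]
  let x := HahnSeries.single (n : ℤ) 1 * w
  have hx : ∀ i : ℤ, x.coeff i = w.coeff (i - n) := fun i => by
    simp only [x]
    conv_lhs => rw [show i = (i - n) + n by ring, HahnSeries.coeff_single_mul_add, one_mul]
  let u : PowerSeries B := PowerSeries.mk fun i => x.coeff i
  have hxu : HahnSeries.ofPowerSeries ℤ B u = x := by
    ext i
    rw [PowerSeries.coeff_coe]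
    split_ifs with hi
    · rw [hx]
      obtain ⟨j, hj⟩ := Int.eq_ofNat_of_zero_le (a := n - i) (by omega)
      rw [show i - n = -(j : ℤ) by omega, hc j (by omega), if_neg (by omega)]
    · simp only [u, PowerSeries.coeff_mk]
      congr
      omega
  have hu : IsUnit u := by
    refine PowerSeries.isUnit_iff_constantCoeff.mpr ?_
    have h := hc n le_rfl
    rw [if_pos rfl] at h
    rw [← PowerSeries.coeff_zero_eq_constantCoeff_apply, PowerSeries.coeff_mk]
    simp only [Nat.cast_zero, hx, zero_sub, h, isUnit_one]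
  refine ⟨w, hw, hu.unit, ?_⟩
  rw [IsUnit.unit_spec, hxu, ← mul_assoc, HahnSeries.single_mul_single, one_mul, neg_add_cancel]
  simp

/-- The data at infinity for the bundle of a submodule. -/
structure InfData (W : M.D.Lat B) where
  p : LatPair M W
  n : ℕ
  y : M.Coord₁ B
  hy : IsUnit (M.valσ B y)
  u : (PowerSeries B)ˣ
  hp : p.w * HahnSeries.ofPowerSeries ℤ B (M.emb₁B B (M.hB B)) ^ n =
    HahnSeries.ofPowerSeries ℤ B (u : PowerSeries B)
  unit_on : ∀ (Z : (M.XB B).Opens) (h₀ : Z ≤ M.V₀ B), Z ≤ M.nbhd B y →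
    IsUnit (Shf.resO h₀ (pairFun p p))

theorem nonempty_infData (W : M.D.Lat B) : Nonempty (M.InfData W) := by
  obtain ⟨N₁, hN₁⟩ := CurveData.exists_surjective_polar W
  obtain ⟨N₂, hN₂⟩ := CurveData.exists_surjective_polar W⁻¹
  set n := max N₁ N₂
  obtain ⟨w, hw, uw, hwu⟩ := M.exists_monic_pole (hN₁ n (le_max_left _ _))
  obtain ⟨v, hv, uv, hvu⟩ := M.exists_monic_pole (hN₂ n (le_max_right _ _))
  let p : LatPair M W := ⟨w, v, hw, hv⟩
  obtain ⟨uh, huh⟩ := M.exists_emb₁B_hB B
  have hX : HahnSeries.ofPowerSeries ℤ B (M.emb₁B B (M.hB B)) =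
      HahnSeries.single (1 : ℤ) 1 * HahnSeries.ofPowerSeries ℤ B (uh : PowerSeries B) := by
    rw [huh, map_mul, HahnSeries.ofPowerSeries_X]
  have hwn : w * HahnSeries.ofPowerSeries ℤ B (M.emb₁B B (M.hB B)) ^ n =
      HahnSeries.ofPowerSeries ℤ B ((uw * uh ^ n : (PowerSeries B)ˣ) : PowerSeries B) := by
    rw [hX, mul_pow, hwu, HahnSeries.single_pow, one_pow, Units.val_mul, Units.val_pow_eq_pow_val,
      map_mul, map_pow]
    rw [show ∀ a b d e : LaurentSeries B, a * b * (d * e) = a * d * (b * e) from fun a b d e => by ring,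
      HahnSeries.single_mul_single]
    simp
  have hvn : v * HahnSeries.ofPowerSeries ℤ B (M.emb₁B B (M.hB B)) ^ n =
      HahnSeries.ofPowerSeries ℤ B ((uv * uh ^ n : (PowerSeries B)ˣ) : PowerSeries B) := by
    rw [hX, mul_pow, hvu, HahnSeries.single_pow, one_pow, Units.val_mul, Units.val_pow_eq_pow_val,
      map_mul, map_pow]
    rw [show ∀ a b d e : LaurentSeries B, a * b * (d * e) = a * d * (b * e) from fun a b d e => by ring,
      HahnSeries.single_mul_single]
    simp
  have h1 : IsUnit (M.valσ B (1 : M.Coord₁ B)) := by simp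
  have htop : M.θ' B ⁻¹ᵁ (M.nbhd B 1 ⊓ M.V₀ B) = ⊤ := Shf.preimage_inf_eq_top
    (M.preimage_θ'_eq_top B (M.preimage_θ_nbhd B h1)) (M.preimage_θ'_V₀ B)
  set f : Γ(M.XB B, M.nbhd B 1 ⊓ M.V₀ B) := Shf.resO inf_le_right (pairFun p p) *
    Shf.resO (inf_le_left.trans (M.nbhd_le_V₁ B 1)) (M.coord₁ B (M.hB B ^ (2 * n))) with hf
  have hev : Shf.evalAt (M.θ' B) _ htop f = HahnSeries.ofPowerSeries ℤ B
      ((uw * uh ^ n * (uv * uh ^ n) : (PowerSeries B)ˣ) : PowerSeries B) := by
    rw [hf, map_mul, Shf.evalAt_res, Shf.evalAt_res, M.evalAt_θ' B (M.preimage_θ_V₁ B),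
      M.evalAt_coord₁]
    conv_lhs => rw [← (M.coord₀ B).apply_symm_apply (pairFun p p), M.evalAt_coord₀, embB_pairFun]
    rw [Units.val_mul, map_mul, ← hwn, ← hvn, map_pow, map_pow]
    ring
  obtain ⟨g, hg, -⟩ := M.existsUnique_extend B h1 f hev
  have hV1 : M.V₁ B ≤ M.nbhd B 1 := by
    rw [nbhd, map_one]
    exact ((M.XB B).basicOpen_of_isUnit isUnit_one).ge
  let y := (M.coord₁ B).symm (Shf.resO hV1 g)
  refine ⟨⟨p, n, y, ?_, uw * uh ^ n, hwn, fun Z h₀ hZ => ?_⟩⟩
  · have h2 : HahnSeries.ofPowerSeries ℤ B (M.emb₁B B y) =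
        HahnSeries.ofPowerSeries ℤ B ((uw * uh ^ n * (uv * uh ^ n) : (PowerSeries B)ˣ) : PowerSeries B) := by
      rw [← M.evalAt_coord₁ B (M.preimage_θ_V₁ B), RingEquiv.apply_symm_apply, Shf.evalAt_res,
        ← M.evalAt_θ' B, ← hev, ← hg, Shf.evalAt_res]
    rw [valσ_apply, HahnSeries.ofPowerSeries_injective h2]
    exact (Units.isUnit _).map _
  · have hZ1 : Z ≤ M.V₁ B := hZ.trans (M.nbhd_le_V₁ B y)
    have hZn : Z ≤ M.nbhd B 1 := hZ1.trans hV1
    have hu : IsUnit (Shf.resO hZ1 (M.coord₁ B y)) := Shf.isUnit_resO_basicOpen _ hZ hZ1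
    rw [RingEquiv.apply_symm_apply, Shf.resO_resO] at hu
    have e : Shf.resO (le_inf hZn h₀) (Shf.resO inf_le_left g) = Shf.resO (le_inf hZn h₀) f := by
      rw [hg]
    rw [hf, map_mul, Shf.resO_resO, Shf.resO_resO, Shf.resO_resO] at e
    rw [e] at hu
    exact isUnit_of_mul_isUnit_left hu

namespace InfData

variable {M} {W : M.D.Lat B} (d : M.InfData W)

/-- The index set of the cover. -/
abbrev Idx (_d : M.InfData W) : Type u := Option (LatPair M W)

/-- The cover. -/
def cover : d.Idx → (M.XB B).Opens := fun i => match i with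
  | none => M.nbhd B d.y
  | some q => (M.XB B).basicOpen (pairFun q q)

/-- The pair attached to an index. -/
def pr : d.Idx → LatPair M W := fun i => match i with
  | none => d.p
  | some q => q

/-- The power of the uniformiser attached to an index. -/
def expo : d.Idx → ℕ := fun i => match i with
  | none => d.n
  | some _ => 0

/-- The twist of a frame, on an open subset of the punctured curve. -/
def twist (i : d.Idx) {Z : (M.XB B).Opens} (_h₀ : Z ≤ M.V₀ B) (hi : Z ≤ d.cover i) :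
    Γ(M.XB B, Z) :=
  match i, hi with
  | none, hi => Shf.resO (hi.trans (M.nbhd_le_V₁ B d.y)) (M.coord₁ B (M.hB B)) ^ d.n
  | some _, _ => 1

theorem resO_twist (i : d.Idx) {Z Z' : (M.XB B).Opens} (h₀ : Z ≤ M.V₀ B) (hi : Z ≤ d.cover i)
    (h : Z' ≤ Z) : Shf.resO h (d.twist i h₀ hi) = d.twist i (h.trans h₀) (h.trans hi) :=
  match i, hi with
  | none, hi => by
    change Shf.resO h (Shf.resO _ (M.coord₁ B (M.hB B)) ^ d.n) = _
    rw [map_pow, Shf.resO_resO]
    rfl
  | some _, _ => map_one _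

theorem isUnit_twist (i : d.Idx) {Z : (M.XB B).Opens} (h₀ : Z ≤ M.V₀ B) (hi : Z ≤ d.cover i) :
    IsUnit (d.twist i h₀ hi) :=
  match i, hi with
  | none, hi => by
    have hle : Z ≤ (M.XB B).basicOpen (M.coord₁ B (M.hB B)) := by
      rw [← M.V₀_inf_V₁ B]
      exact le_inf h₀ (hi.trans (M.nbhd_le_V₁ B d.y))
    have h' : IsUnit (Shf.resO (hi.trans (M.nbhd_le_V₁ B d.y)) (M.coord₁ B (M.hB B))) :=
      Shf.isUnit_resO_basicOpen _ hle _
    exact h'.pow _
  | some _, _ => isUnit_one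

theorem isUnit_diag (i : d.Idx) {Z : (M.XB B).Opens} (h₀ : Z ≤ M.V₀ B) (hi : Z ≤ d.cover i) :
    IsUnit (Shf.resO h₀ (pairFun (d.pr i) (d.pr i))) :=
  match i, hi with
  | none, hi => d.unit_on Z h₀ hi
  | some q, hi => Shf.isUnit_resO_basicOpen _ hi _

/-- The defining equation of the cocycle. -/
def IsCoeff (i j : d.Idx) {Z : (M.XB B).Opens} (h₀ : Z ≤ M.V₀ B) (hi : Z ≤ d.cover i)
    (hj : Z ≤ d.cover j) (G : Γ(M.XB B, Z)) : Prop :=
  G * (Shf.resO h₀ (pairFun (d.pr j) (d.pr j)) * d.twist j h₀ hj) =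
    Shf.resO h₀ (pairFun (d.pr i) (d.pr j)) * d.twist i h₀ hi

theorem exists_g (i j : d.Idx) : ∃ G : Γ(M.XB B, d.cover i ⊓ d.cover j),
    (∀ (Z : (M.XB B).Opens) (h₀ : Z ≤ M.V₀ B) (h : Z ≤ d.cover i ⊓ d.cover j),
      d.IsCoeff i j h₀ (h.trans inf_le_left) (h.trans inf_le_right) (Shf.resO h G)) ∧
      (i = none → j = none → G = 1) := by
  have main : d.cover i ⊓ d.cover j ≤ M.V₀ B → ∃ G : Γ(M.XB B, d.cover i ⊓ d.cover j),
      ∀ (Z : (M.XB B).Opens) (h₀ : Z ≤ M.V₀ B) (h : Z ≤ d.cover i ⊓ d.cover j),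
        d.IsCoeff i j h₀ (h.trans inf_le_left) (h.trans inf_le_right) (Shf.resO h G) := by
    intro hle
    obtain ⟨b, hb⟩ := ((d.isUnit_diag j hle inf_le_right).mul
      (d.isUnit_twist j hle inf_le_right)).exists_left_inv
    refine ⟨Shf.resO hle (pairFun (d.pr i) (d.pr j)) * d.twist i hle inf_le_left * b,
      fun Z h₀ h => ?_⟩
    have hb' := congrArg (Shf.resO h) hb
    simp only [map_mul, map_one, Shf.resO_resO, d.resO_twist] at hb'
    simp only [IsCoeff, map_mul, Shf.resO_resO, d.resO_twist]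
    linear_combination (Shf.resO h₀ (pairFun (d.pr i) (d.pr j)) *
      d.twist i h₀ (h.trans inf_le_left)) * hb'
  match i, j with
  | none, none => exact ⟨1, fun Z h₀ h => by simp only [IsCoeff, map_one, one_mul], fun _ _ => rfl⟩
  | some q, j =>
    obtain ⟨G, hG⟩ := main (inf_le_left.trans ((M.XB B).basicOpen_le _))
    exact ⟨G, hG, fun h => by cases h⟩
  | none, some q =>
    obtain ⟨G, hG⟩ := main (inf_le_right.trans ((M.XB B).basicOpen_le _))
    exact ⟨G, hG, fun _ h => by cases h⟩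

/-- The transition functions. -/
def gTrans (i j : d.Idx) : Γ(M.XB B, d.cover i ⊓ d.cover j) := (d.exists_g i j).choose

theorem gTrans_spec (i j : d.Idx) {Z : (M.XB B).Opens} (h₀ : Z ≤ M.V₀ B)
    (h : Z ≤ d.cover i ⊓ d.cover j) :
    Shf.resO h (d.gTrans i j) * (Shf.resO h₀ (pairFun (d.pr j) (d.pr j)) *
      d.twist j h₀ (h.trans inf_le_right)) =
    Shf.resO h₀ (pairFun (d.pr i) (d.pr j)) * d.twist i h₀ (h.trans inf_le_left) :=
  (d.exists_g i j).choose_spec.1 Z h₀ h

theorem gTrans_none : d.gTrans none none = 1 := (d.exists_g none none).choose_spec.2 rfl rfl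

theorem covers_cover (x : M.XB B) : ∃ i, x ∈ d.cover i := by
  rcases M.covers_nbhd B d.hy x with hx | hx
  · by_contra hne
    push Not at hne
    obtain ⟨P, rfl⟩ := hx
    have hall : ∀ q : LatPair M W, (M.coord₀ B).symm (pairFun q q) ∈ P.asIdeal := fun q => by
      by_contra hq
      refine hne (some q) ?_
      change P ∈ M.q₀ B ⁻¹ᵁ (M.XB B).basicOpen (pairFun q q)
      rw [← (M.coord₀ B).apply_symm_apply (pairFun q q)]
      rw [show M.q₀ B ⁻¹ᵁ (M.XB B).basicOpen (M.coord₀ B ((M.coord₀ B).symm (pairFun q q))) =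
        PrimeSpectrum.basicOpen ((M.coord₀ B).symm (pairFun q q)) from
          Shf.preimage_basicOpen_chartEquiv (M.q₀ B) _]
      exact hq
    have h1 : ∀ z ∈ (W : Submodule (M.D.reg B) (LaurentSeries B)) *
        (↑W⁻¹ : Submodule (M.D.reg B) (LaurentSeries B)), ∃ r ∈ P.asIdeal, M.D.embB B r = z := by
      intro z hz
      refine Submodule.mul_induction_on hz (fun w hw v hv => ?_) ?_
      · exact ⟨_, hall ⟨w, v, hw, hv⟩, embB_pairFun _ _⟩
      · rintro a b ⟨r, hr, rfl⟩ ⟨r', hr', rfl⟩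
        exact ⟨r + r', add_mem hr hr', map_add _ _ _⟩
    obtain ⟨r, hr, hr1⟩ := h1 1 (by rw [Units.mul_inv]; exact Submodule.one_le.mp le_rfl)
    rw [CurveData.embB_injective (D := M.D) (B := B) (hr1.trans (map_one _).symm)] at hr
    exact P.isPrime.ne_top ((Ideal.eq_top_iff_one _).mpr hr)
  · exact ⟨none, hx⟩

theorem mul_aux (i j l : d.Idx) (h₀ : d.cover i ⊓ d.cover j ⊓ d.cover l ≤ M.V₀ B) :
    Shf.resO inf_le_left (d.gTrans i j) *
      Shf.resO (le_inf (inf_le_left.trans inf_le_right) inf_le_right) (d.gTrans j l) =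
    Shf.resO (le_inf (inf_le_left.trans inf_le_left) inf_le_right) (d.gTrans i l) := by
  set Z := d.cover i ⊓ d.cover j ⊓ d.cover l
  have hi : Z ≤ d.cover i := inf_le_left.trans inf_le_left
  have hj : Z ≤ d.cover j := inf_le_left.trans inf_le_right
  have hl : Z ≤ d.cover l := inf_le_right
  have hij := d.gTrans_spec i j h₀ (le_inf hi hj)
  have hjl := d.gTrans_spec j l h₀ (le_inf hj hl)
  have hil := d.gTrans_spec i l h₀ (le_inf hi hl)
  have hp := congrArg (Shf.resO h₀) (pairFun_mul (d.pr i) (d.pr j) (d.pr j) (d.pr l))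
  simp only [map_mul] at hp
  refine ((d.isUnit_diag l h₀ hl).mul (d.isUnit_twist l h₀ hl)).mul_right_cancel ?_
  refine ((d.isUnit_diag j h₀ hj).mul (d.isUnit_twist j h₀ hj)).mul_right_cancel ?_
  linear_combination (Shf.resO (le_inf hj hl) (d.gTrans j l) *
      (Shf.resO h₀ (pairFun (d.pr l) (d.pr l)) * d.twist l h₀ hl)) * hij +
    (Shf.resO h₀ (pairFun (d.pr i) (d.pr j)) * d.twist i h₀ hi) * hjl -
    (Shf.resO h₀ (pairFun (d.pr j) (d.pr j)) * d.twist j h₀ hj) * hil +
    (d.twist i h₀ hi * d.twist j h₀ hj) * hp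

/-- The cocycle of the bundle. -/
abbrev cocycle : Shf.Cocycle (M.XB B) where
  ι := d.Idx
  U := d.cover
  covers := d.covers_cover
  g := d.gTrans
  g_self i := by
    match i with
    | none => exact d.gTrans_none
    | some q =>
      have h₀ : d.cover (some q) ⊓ d.cover (some q) ≤ M.V₀ B :=
        inf_le_left.trans ((M.XB B).basicOpen_le _)
      have h := d.gTrans_spec (some q) (some q) h₀ le_rfl
      rw [Shf.resO_self] at h
      exact ((d.isUnit_diag (some q) h₀ inf_le_right).mul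
        (d.isUnit_twist (some q) h₀ inf_le_right)).mul_right_cancel (h.trans (one_mul _).symm)
  g_mul i j l := by
    match i, j, l with
    | none, none, none => simp [gTrans_none]
    | some q, j, l => exact d.mul_aux _ _ _ ((inf_le_left.trans inf_le_left).trans ((M.XB B).basicOpen_le _))
    | none, some q, l => exact d.mul_aux _ _ _ ((inf_le_left.trans inf_le_right).trans ((M.XB B).basicOpen_le _))
    | none, none, some q => exact d.mul_aux _ _ _ (inf_le_right.trans ((M.XB B).basicOpen_le _))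

theorem isFrame_inf : Shf.IsFrame d.cocycle.toModules (d.cocycle.frame none) :=
  d.cocycle.isFrame_frame none

theorem preimage_inf : M.θ B ⁻¹ᵁ d.cocycle.U none = ⊤ := M.preimage_θ_nbhd B d.hy

theorem ex_frame (s : d.cocycle.sections (M.V₀ B)) :
    M.ex B d.isFrame_inf d.preimage_inf (s : Γ(d.cocycle.toModules, M.V₀ B)) =
      Shf.evalAt (M.θ' B) (M.V₀ B ⊓ d.cover none)
        (Shf.preimage_inf_eq_top (M.preimage_θ'_V₀ B) (M.preimage_θ'_eq_top B d.preimage_inf))
        (s.1 none) := by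
  refine M.ex_eq B d.isFrame_inf d.preimage_inf _ inf_le_left inf_le_right _
    (f := s.1 none) (d.cocycle.ext_section fun j => ?_)
  change Shf.resO inf_le_left (s.1 none) *
      (Shf.resM d.cocycle.toModules inf_le_right (d.cocycle.frame none) :
        d.cocycle.sections (M.V₀ B ⊓ d.cover none)).1 j =
    Shf.resO (inf_le_inf_right _ inf_le_left) (s.1 j)
  rw [d.cocycle.resM_frame none]
  exact s.2 none j (M.V₀ B ⊓ d.cover none ⊓ d.cover j) (inf_le_left.trans inf_le_left)
    (inf_le_left.trans inf_le_right) inf_le_right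

theorem evalAt_none {Z : (M.XB B).Opens} (h₀ : Z ≤ M.V₀ B) (hi : Z ≤ d.cover none)
    (hZ : M.θ' B ⁻¹ᵁ Z = ⊤) :
    Shf.evalAt (M.θ' B) Z hZ (Shf.resO h₀ (pairFun d.p d.p) * d.twist none h₀ hi) =
      d.p.v * HahnSeries.ofPowerSeries ℤ B (d.u : PowerSeries B) := by
  rw [map_mul, Shf.evalAt_res]
  conv_lhs => rw [← (M.coord₀ B).apply_symm_apply (pairFun d.p d.p), M.evalAt_coord₀, embB_pairFun]
  change _ * Shf.evalAt (M.θ' B) Z hZ
    (Shf.resO (hi.trans (M.nbhd_le_V₁ B d.y)) (M.coord₁ B (M.hB B)) ^ d.n) = _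
  rw [map_pow, Shf.evalAt_res, M.evalAt_θ' B (M.preimage_θ_V₁ B), M.evalAt_coord₁, ← d.hp]
  ring

theorem isUnit_inf_v : IsUnit (d.p.v * HahnSeries.ofPowerSeries ℤ B (d.u : PowerSeries B)) := by
  rw [← d.evalAt_none (inf_le_left : M.V₀ B ⊓ d.cover none ≤ M.V₀ B) inf_le_right
    (Shf.preimage_inf_eq_top (M.preimage_θ'_V₀ B) (M.preimage_θ'_eq_top B d.preimage_inf))]
  exact ((d.isUnit_diag none inf_le_left inf_le_right).mul
    (d.isUnit_twist none inf_le_left inf_le_right)).map _

theorem latSub_eq : M.latSub B d.isFrame_inf d.preimage_inf =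
    (M.D.retrivialise B d.u⁻¹ * W : M.D.Lat B) := by
  set uL := HahnSeries.ofPowerSeries ℤ B ((d.u⁻¹ : (PowerSeries B)ˣ) : PowerSeries B) with huL
  have huu : uL * HahnSeries.ofPowerSeries ℤ B (d.u : PowerSeries B) = 1 := by
    rw [huL, ← map_mul, Units.inv_mul, map_one]
  have hcoe : ((M.D.retrivialise B d.u⁻¹ * W : M.D.Lat B) :
      Submodule (M.D.reg B) (LaurentSeries B)) =
      Submodule.span (M.D.reg B) {uL} * (W : Submodule (M.D.reg B) (LaurentSeries B)) := rfl
  rw [hcoe]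
  refine le_antisymm ?_ ?_
  · intro z hz
    obtain ⟨(s : d.cocycle.sections (M.V₀ B)), rfl⟩ := hz
    rw [Submodule.mem_span_singleton_mul]
    refine ⟨HahnSeries.ofPowerSeries ℤ B (d.u : PowerSeries B) *
      M.ex B d.isFrame_inf d.preimage_inf (s : Γ(d.cocycle.toModules, M.V₀ B)), ?_,
      by rw [← mul_assoc, huu, one_mul]⟩
    set x := HahnSeries.ofPowerSeries ℤ B (d.u : PowerSeries B) *
      M.ex B d.isFrame_inf d.preimage_inf (s : Γ(d.cocycle.toModules, M.V₀ B))
    suffices h : ∀ v' ∈ (↑W⁻¹ : Submodule (M.D.reg B) (LaurentSeries B)),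
        x * v' ∈ (1 : Submodule (M.D.reg B) (LaurentSeries B)) by
      have hsub : Submodule.span (M.D.reg B) {x} * (↑W⁻¹ : Submodule (M.D.reg B) (LaurentSeries B)) ≤ 1 := by
        intro z hz
        obtain ⟨v', hv', rfl⟩ := Submodule.mem_span_singleton_mul.mp hz
        exact h v' hv'
      have hx : x ∈ Submodule.span (M.D.reg B) {x} * ((↑W⁻¹ : Submodule (M.D.reg B) (LaurentSeries B)) *
          (W : Submodule (M.D.reg B) (LaurentSeries B))) := by
        rw [Units.inv_mul, mul_one]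
        exact Submodule.mem_span_singleton_self x
      rw [← mul_assoc] at hx
      simpa using mul_le_mul_left hsub (W : Submodule (M.D.reg B) (LaurentSeries B)) hx
    intro v' hv'
    let q' : LatPair M W := ⟨d.p.w, v', d.p.hw, hv'⟩
    let piece : ∀ i : d.Idx, Γ(M.XB B, M.V₀ B ⊓ d.cover i) := fun i =>
      s.1 i * (Shf.resO inf_le_left (pairFun (d.pr i) q') * d.twist i inf_le_left inf_le_right)
    obtain ⟨P, hP⟩ := Shf.exists_glue_functions (fun i => M.V₀ B ⊓ d.cover i) (fun _ => inf_le_left)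
      (fun z hz => (d.covers_cover z).imp fun i hi => ⟨hz, hi⟩) piece (fun i j => by
        set Z := (M.V₀ B ⊓ d.cover i) ⊓ (M.V₀ B ⊓ d.cover j)
        have h₀ : Z ≤ M.V₀ B := inf_le_left.trans inf_le_left
        have hi : Z ≤ d.cover i := inf_le_left.trans inf_le_right
        have hj : Z ≤ d.cover j := inf_le_right.trans inf_le_right
        have hs := s.2 i j Z h₀ hi hj
        have hg := d.gTrans_spec i j h₀ (le_inf hi hj)
        have hp := congrArg (Shf.resO h₀) (pairFun_mul (d.pr i) (d.pr j) (d.pr j) q')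
        simp only [map_mul] at hp
        simp only [piece, map_mul, Shf.resO_resO, d.resO_twist]
        refine ((d.isUnit_diag j h₀ hj).mul (d.isUnit_twist j h₀ hj)).mul_right_cancel ?_
        rw [← hs]
        change _ = _ * (Shf.resO (le_inf hi hj) (d.gTrans i j)) * _ * _
        linear_combination -(Shf.resO (le_inf h₀ hi) (s.1 i) * d.twist j h₀ hj *
            Shf.resO h₀ (pairFun (d.pr j) q')) * hg -
          (Shf.resO (le_inf h₀ hi) (s.1 i) * d.twist i h₀ hi * d.twist j h₀ hj) * hp)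
    refine Submodule.mem_one.mpr ⟨⟨_, (M.coord₀ B).symm P, rfl⟩, ?_⟩
    change M.D.embB B ((M.coord₀ B).symm P) = x * v'
    have htop := Shf.preimage_inf_eq_top (M.preimage_θ'_V₀ B) (M.preimage_θ'_eq_top B d.preimage_inf)
    have hP0 := congrArg (Shf.evalAt (M.θ' B) (M.V₀ B ⊓ d.cover none) htop) (hP none)
    rw [Shf.evalAt_res] at hP0
    rw [← M.evalAt_coord₀ B (M.preimage_θ'_V₀ B), RingEquiv.apply_symm_apply, hP0]
    simp only [piece, x, d.ex_frame, map_mul]
    change _ * (Shf.evalAt (M.θ' B) _ htop (Shf.resO _ (pairFun (d.pr none) q')) *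
      Shf.evalAt (M.θ' B) _ htop (Shf.resO _ (M.coord₁ B (M.hB B)) ^ d.n)) = _
    rw [map_pow, evalAt_pairFun, evalAt_hB, ← d.hp]
    change _ * (d.p.w * v' * _) = _
    ring
  · intro z hz
    obtain ⟨x, hx, rfl⟩ := Submodule.mem_span_singleton_mul.mp hz
    let q : LatPair M W := ⟨x, d.p.v, hx, d.p.hv⟩
    choose b hb using fun i : d.Idx =>
      ((d.isUnit_diag i (inf_le_left : M.V₀ B ⊓ d.cover i ≤ M.V₀ B) inf_le_right).mul
        (d.isUnit_twist i (inf_le_left : M.V₀ B ⊓ d.cover i ≤ M.V₀ B) inf_le_right)).exists_left_inv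
    have hfam : d.cocycle.IsSection (M.V₀ B)
        (fun i => Shf.resO inf_le_left (pairFun q (d.pr i)) * b i) := by
      intro i j Z h₀ hi hj
      have hg := d.gTrans_spec i j h₀ (le_inf hi hj)
      have hp := congrArg (Shf.resO h₀) (pairFun_mul q (d.pr i) (d.pr i) (d.pr j))
      simp only [map_mul] at hp
      have hbi := congrArg (Shf.resO (le_inf h₀ hi)) (hb i)
      have hbj := congrArg (Shf.resO (le_inf h₀ hj)) (hb j)
      simp only [map_mul, map_one, Shf.resO_resO, d.resO_twist] at hbi hbj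
      simp only [map_mul, Shf.resO_resO]
      change _ * Shf.resO (le_inf hi hj) (d.gTrans i j) = _
      refine ((d.isUnit_diag j h₀ hj).mul (d.isUnit_twist j h₀ hj)).mul_right_cancel ?_
      linear_combination (Shf.resO h₀ (pairFun q (d.pr i)) * Shf.resO (le_inf h₀ hi) (b i)) * hg +
        (Shf.resO (le_inf h₀ hi) (b i) * d.twist i h₀ hi) * hp +
        Shf.resO h₀ (pairFun q (d.pr j)) * hbi - Shf.resO h₀ (pairFun q (d.pr j)) * hbj
    refine ⟨(⟨_, hfam⟩ : d.cocycle.sections (M.V₀ B)), ?_⟩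
    rw [d.ex_frame]
    have htop := Shf.preimage_inf_eq_top (M.preimage_θ'_V₀ B) (M.preimage_θ'_eq_top B d.preimage_inf)
    refine d.isUnit_inf_v.mul_right_cancel ?_
    rw [← d.evalAt_none inf_le_left inf_le_right htop, ← map_mul]
    conv_lhs => rw [mul_assoc, show b none * (Shf.resO inf_le_left (pairFun d.p d.p) *
      d.twist none inf_le_left inf_le_right) = 1 from hb none, mul_one, Shf.evalAt_res]
    conv_lhs => rw [← (M.coord₀ B).apply_symm_apply (pairFun q (d.pr none)), M.evalAt_coord₀,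
      embB_pairFun]
    rw [d.evalAt_none inf_le_left inf_le_right htop]
    change x * d.p.v = uL * x * _
    linear_combination -(x * d.p.v) * huu

theorem exists_rigid : Nonempty ((Scheme.Modules.pullback (rigSection c (specBase k B) ε)).obj
    d.cocycle.toModules ≅ SheafOfModules.unit (Spec (CommRingCat.of B)).ringCatSheaf) :=
  Shf.nonempty_iso_unit (M.preimage_σ_eq_top B d.preimage_inf)
    (d.isFrame_inf.pb (rigSection c (specBase k B) ε))

end InfData

end CurveModel

end Fermat.Agent.Jac
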